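/-
S56 / block SEL (sub-architect helper182): selection of Taylor-Wiles primes.
DEFINITIONS of the abstract core (Mathlib only).

`Γ` = `G_ℚ`, `ρ : Γ → GL₂(k)` in matrix form, `H` = `G_{ℚ(ζ_{p^(n+1)})}`, `det ρ` = the mod `p`
cyclotomic character.  A "cocycle" is a map `Y : Γ → sl₂(k)` with
`Y (g h) = Y g + det (ρ g) • ρ g * Y h * ρ g⁻¹`   (a 1-cocycle with values in `ad⁰(1)`).
Main theorem of the core (`Sel/Core.lean`): if `Y` is not a coboundary there is `s ∈ H` such that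
`ρ s` has distinct eigenvalues and `tr (Y s * ρ s) ≠ 0`.

All nodes of the core are stated with the results of the previous nodes as HYPOTHESES
(the `Prop`s defined below), so every leaf is independent of all other leaves.
-/
import Fermat.Agent.S56.Sel.Core.Defs

set_option autoImplicit false

namespace Fermat.Agent.S56.Sel

open Matrix

/-- The discriminant of the characteristic polynomial. -/
def disc {k : Type} [Field k] (A : M2 k) : k := A.trace ^ 2 - 4 * A.det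

/-- Every `k`-linear derivation of `M₂(k)` is inner. -/
def DerivInner (k : Type) [Field k] : Prop :=
  ∀ D : M2 k →ₗ[k] M2 k, (∀ A B, D (A * B) = D A * B + A * D B) →
    ∃ X : M2 k, ∀ A, D A = X * A - A * X

/-- The group theoretic data. -/
structure Setup (p : ℕ) (k : Type) [Field k] (Γ : Type) [Group Γ] where
  /-- the representation, in matrix form -/
  ρ : Γ →* M2 k
  /-- the normal subgroup `G_{ℚ(ζ_{p^(n+1)})}` -/
  H : Subgroup Γ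
  hp : p.Prime
  hp2 : p ≠ 2
  char : CharP k p
  fin : Finite k
  normal : H.Normal
  /-- `Γ / H` is cyclic -/
  cyc : ∃ γ : Γ, ∀ g : Γ, ∃ (i : ℕ) (h : Γ), h ∈ H ∧ g = γ ^ i * h
  det_H : ∀ h ∈ H, (ρ h).det = 1
  /-- some determinant is not a square of `𝔽_p` -/
  nonsq : ∃ g : Γ, ∀ m : ℕ, (ρ g).det ≠ (m : k) ^ 2
  /-- all eigenvalues lie in `k` -/
  split : ∀ g, ∃ α β : k, (ρ g).trace = α + β ∧ (ρ g).det = α * β
  /-- no stable line -/
  irr : ∀ v : Fin 2 → k, v ≠ 0 → ∃ g, ∀ c : k, (ρ g) *ᵥ v ≠ c • v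
  /-- no line stable under a subgroup of index two -/
  irr2 : ∀ G₁ : Subgroup Γ, G₁.index = 2 → ∀ v : Fin 2 → k, v ≠ 0 →
    ∃ g ∈ G₁, ∀ c : k, (ρ g) *ᵥ v ≠ c • v

namespace Setup

variable {p : ℕ} {k : Type} [Field k] {Γ : Type} [Group Γ] (S : Setup p k Γ)

/-- `H` has no stable line. -/
def IrrH : Prop := ∀ v : Fin 2 → k, v ≠ 0 → ∃ h ∈ S.H, ∀ c : k, (S.ρ h) *ᵥ v ≠ c • v

/-- Burnside: `ρ(H)` spans `M₂(k)`. -/
def SpanH : Prop := ∀ A : M2 k, A ∈ Submodule.span k (S.ρ '' (S.H : Set Γ))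

/-- `H⁰(H, ad⁰) = 0`. -/
def InvH : Prop := ∀ X : M2 k, X.trace = 0 → (∀ h ∈ S.H, S.ρ h * X = X * S.ρ h) → X = 0

/-- a nonzero nilpotent matrix is not orthogonal to `ρ(H)`. -/
def NilIrr : Prop := ∀ n : M2 k, n ≠ 0 → n * n = 0 → ∃ h ∈ S.H, (n * S.ρ h).trace ≠ 0

/-- `ρ(H)` contains an element with distinct eigenvalues. -/
def HasReg : Prop := ∃ s ∈ S.H, disc (S.ρ s) ≠ 0

/-- `ad⁰` has no `Γ`-stable line. -/
def NoAdLine : Prop := ∀ X : M2 k, X ≠ 0 → X.trace = 0 →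
  ¬ ∀ g, ∃ c : k, S.ρ g * X * S.ρ g⁻¹ = c • X

/-- `ad⁰` is an irreducible `k[Γ]`-module. -/
def AdIrr : Prop := ∀ U : Submodule k (M2 k), (∀ X ∈ U, X.trace = 0) →
  (∀ g, ∀ X ∈ U, S.ρ g * X * S.ρ g⁻¹ ∈ U) → (∃ X ∈ U, X ≠ 0) →
  ∀ X : M2 k, X.trace = 0 → X ∈ U

/-- Frattini argument: every coset `H g₀` contains an element normalising the line `k n`. -/
def Frattini : Prop := ∀ x ∈ S.H, ∀ n : M2 k, n ≠ 0 → n * n = 0 → S.ρ x = 1 + n → ∀ g₀ : Γ,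
  ∃ h ∈ S.H, ∃ c : k, S.ρ (h * g₀) * n * S.ρ (h * g₀)⁻¹ = c • n

/-- 1-cocycles with values in `ad⁰ ⊗ det`. -/
structure IsCocycle (Y : Γ → M2 k) : Prop where
  tr : ∀ g, (Y g).trace = 0
  coc : ∀ g h, Y (g * h) = Y g + (S.ρ g).det • (S.ρ g * Y h * S.ρ g⁻¹)

/-- coboundaries -/
def IsCob (Y : Γ → M2 k) : Prop :=
  ∃ X : M2 k, X.trace = 0 ∧ ∀ g, Y g = (S.ρ g).det • (S.ρ g * X * S.ρ g⁻¹) - X

/-- coboundaries on `H` -/
def IsCobH (Y : Γ → M2 k) : Prop :=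
  ∃ X : M2 k, X.trace = 0 ∧ ∀ h ∈ S.H, Y h = S.ρ h * X * S.ρ h⁻¹ - X

/-- the `ε`-part of the trace of the deformation `(1 + ε Y) ρ`. -/
def tau (Y : Γ → M2 k) (g : Γ) : k := (Y g * S.ρ g).trace

/-- `τ` vanishes on the elements of `H` with distinct eigenvalues. -/
def RegVanish (Y : Γ → M2 k) : Prop := ∀ s ∈ S.H, disc (S.ρ s) ≠ 0 → S.tau Y s = 0

/-- `Y` vanishes on `H ∩ ker ρ`. -/
def BetaZero (Y : Γ → M2 k) : Prop := ∀ κ ∈ S.H, S.ρ κ = 1 → Y κ = 0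

/-- The formal properties of `τ` used in the unipotent analysis. -/
structure TauLike (t : Γ → k) : Prop where
  t0 : ∀ x ∈ S.H, ∀ y ∈ S.H, S.ρ x = S.ρ y → t x = t y
  t1 : ∀ x ∈ S.H, ∀ y ∈ S.H,
    t (x * y) + t (x * y⁻¹) = t x * (S.ρ y).trace + (S.ρ x).trace * t y
  t2 : ∀ g, ∀ x ∈ S.H, t (g * x * g⁻¹) = (S.ρ g).det * t x
  reg : ∀ s ∈ S.H, disc (S.ρ s) ≠ 0 → t s = 0

end Setup

end Fermat.Agent.S56.Sel
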