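/-
S56 / block SEL, node N6 (owner helper118): `ad⁰` has no `Γ`-stable line.

If `ρ g X ρ g⁻¹ ∈ k X` for all `g` (`X ≠ 0` of trace zero) then either `det X = 0` and the image of `X`
is a stable line, or `ρ g X = ± X ρ g`; the commutant `G₁` of `X` has index `≤ 2`; if `-det X = l²`
the image of `X + l` is a line stable under `G₁`; otherwise `ρ(G₁)` consists of scalars and an
eigenvector of any `g₀ ∉ G₁` spans a stable line.
-/
import Fermat.Agent.S56.Sel.Defs

set_option autoImplicit false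

namespace Fermat.Agent.S56.Sel

open Matrix

namespace NoAdLine

section Lin

variable {k : Type} [Field k]

theorem exists_smul_of_cross (v y : Fin 2 → k) (hv : v ≠ 0) (h : v 0 * y 1 - v 1 * y 0 = 0) :
    ∃ t : k, y = t • v := by
  by_cases h0 : v 0 = 0
  · have h1 : v 1 ≠ 0 := by
      intro h1
      apply hv
      ext i
      fin_cases i
      · exact h0
      · exact h1
    have hy0 : y 0 = 0 := by
      rw [h0, zero_mul, zero_sub, neg_eq_zero] at h
      exact (mul_eq_zero.1 h).resolve_left h1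
    refine ⟨y 1 / v 1, ?_⟩
    ext i
    fin_cases i
    · show y 0 = y 1 / v 1 * v 0
      rw [hy0, h0, mul_zero]
    · show y 1 = y 1 / v 1 * v 1
      rw [div_mul_cancel₀ _ h1]
  · refine ⟨y 0 / v 0, ?_⟩
    ext i
    fin_cases i
    · show y 0 = y 0 / v 0 * v 0
      rw [div_mul_cancel₀ _ h0]
    · show y 1 = y 0 / v 0 * v 1
      field_simp
      linear_combination h

theorem cross_mulVec (M : M2 k) (w u : Fin 2 → k) :
    (M *ᵥ w) 0 * (M *ᵥ u) 1 - (M *ᵥ w) 1 * (M *ᵥ u) 0 = M.det * (w 0 * u 1 - w 1 * u 0) := by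
  simp only [Matrix.mulVec, dotProduct, Fin.sum_univ_two, Matrix.det_fin_two]
  ring

/-- the image of a matrix of rank one is a line, stable under everything which normalises it. -/
theorem exists_line (M : M2 k) (hM : M ≠ 0) (hdet : M.det = 0) :
    ∃ v : Fin 2 → k, v ≠ 0 ∧ ∀ B B' : M2 k, B * M = M * B' → ∃ t : k, B *ᵥ v = t • v := by
  obtain ⟨w, hw⟩ : ∃ w : Fin 2 → k, M *ᵥ w ≠ 0 := by
    by_contra hcon
    push Not at hcon
    apply hM
    rw [Matrix.ext_iff_mulVec]
    intro v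
    rw [hcon v, Matrix.zero_mulVec]
  refine ⟨M *ᵥ w, hw, fun B B' hB => ?_⟩
  rw [Matrix.mulVec_mulVec, hB, ← Matrix.mulVec_mulVec]
  apply exists_smul_of_cross _ _ hw
  rw [cross_mulVec, hdet, zero_mul]

theorem det_add_smul_one (X : M2 k) (l : k) :
    (X + l • (1 : M2 k)).det = X.det + l * X.trace + l ^ 2 := by
  simp only [Matrix.det_fin_two, Matrix.trace_fin_two, Matrix.add_apply, Matrix.smul_apply,
    Matrix.one_apply_eq, Matrix.one_apply_ne (show (0 : Fin 2) ≠ 1 by decide),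
    Matrix.one_apply_ne (show (1 : Fin 2) ≠ 0 by decide), smul_eq_mul, mul_one, mul_zero, add_zero]
  ring

/-- an eigenvalue `t` of a matrix of trace zero satisfies `t² = -det`. -/
theorem neg_det_eq_sq (X : M2 k) (htr : X.trace = 0) (v : Fin 2 → k) (hv : v ≠ 0) (t : k)
    (h : X *ᵥ v = t • v) : -X.det = t ^ 2 := by
  have h1 : (X + (-t) • (1 : M2 k)).det = 0 := by
    rw [← Matrix.exists_mulVec_eq_zero_iff]
    refine ⟨v, hv, ?_⟩
    rw [Matrix.add_mulVec, Matrix.smul_mulVec, Matrix.one_mulVec, h, neg_smul, add_neg_cancel]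
  rw [det_add_smul_one, htr, mul_zero, add_zero] at h1
  linear_combination -h1

/-- a matrix with an eigenvalue in `k` is scalar or has a line stable under its commutant. -/
theorem scalar_or_line (A : M2 k) (α β : k) (h1 : A.trace = α + β) (h2 : A.det = α * β) :
    A = β • (1 : M2 k) ∨
      ∃ v : Fin 2 → k, v ≠ 0 ∧ ∀ B : M2 k, B * A = A * B → ∃ t : k, B *ᵥ v = t • v := by
  by_cases hA : A + (-β) • (1 : M2 k) = 0
  · left
    rw [neg_smul, add_neg_eq_zero] at hA
    exact hA
  · right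
    have hdet : (A + (-β) • (1 : M2 k)).det = 0 := by
      rw [det_add_smul_one, h1, h2]
      ring
    obtain ⟨v, hv, hv'⟩ := exists_line _ hA hdet
    refine ⟨v, hv, fun B hB => hv' B B ?_⟩
    rw [mul_add, add_mul, hB, mul_smul_comm, smul_mul_assoc, mul_one, one_mul]

end Lin

variable {p : ℕ} {k : Type} [Field k] {Γ : Type} [Group Γ] (S : Setup p k Γ)

theorem rho_mul_inv (g : Γ) : S.ρ g * S.ρ g⁻¹ = 1 := by
  rw [← map_mul, mul_inv_cancel, map_one]

theorem rho_inv_mul (g : Γ) : S.ρ g⁻¹ * S.ρ g = 1 := by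
  rw [← map_mul, inv_mul_cancel, map_one]

include S in
theorem two_ne : (2 : k) ≠ 0 := by
  have := S.char
  intro h
  have h1 : ((2 : ℕ) : k) = 0 := by exact_mod_cast h
  rw [CharP.cast_eq_zero_iff k p 2] at h1
  exact S.hp2 ((Nat.prime_dvd_prime_iff_eq S.hp Nat.prime_two).1 h1)

/-- the commutant of `X`. -/
def comm (X : M2 k) : Subgroup Γ where
  carrier := {g | S.ρ g * X = X * S.ρ g}
  mul_mem' := fun {a b} ha hb => by
    show S.ρ (a * b) * X = X * S.ρ (a * b)
    have ha' : S.ρ a * X = X * S.ρ a := ha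
    have hb' : S.ρ b * X = X * S.ρ b := hb
    rw [map_mul, mul_assoc, hb', ← mul_assoc, ha', mul_assoc]
  one_mem' := by
    show S.ρ 1 * X = X * S.ρ 1
    rw [map_one, one_mul, mul_one]
  inv_mem' := fun {a} ha => by
    show S.ρ a⁻¹ * X = X * S.ρ a⁻¹
    have ha' : S.ρ a * X = X * S.ρ a := ha
    calc S.ρ a⁻¹ * X = S.ρ a⁻¹ * X * (S.ρ a * S.ρ a⁻¹) := by rw [rho_mul_inv, mul_one]
      _ = S.ρ a⁻¹ * (X * S.ρ a) * S.ρ a⁻¹ := by simp only [mul_assoc]
      _ = S.ρ a⁻¹ * (S.ρ a * X) * S.ρ a⁻¹ := by rw [ha']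
      _ = (S.ρ a⁻¹ * S.ρ a) * X * S.ρ a⁻¹ := by simp only [mul_assoc]
      _ = X * S.ρ a⁻¹ := by rw [rho_inv_mul, one_mul]

theorem mem_comm {X : M2 k} {g : Γ} : g ∈ comm S X ↔ S.ρ g * X = X * S.ρ g := Iff.rfl

/-- `ρ g X ρ g⁻¹ = c X` in the form `ρ g X = c X ρ g`. -/
theorem mul_eq_of_conj {X : M2 k} {g : Γ} {c : k} (hc : S.ρ g * X * S.ρ g⁻¹ = c • X) :
    S.ρ g * X = c • (X * S.ρ g) := by
  calc S.ρ g * X = S.ρ g * X * (S.ρ g⁻¹ * S.ρ g) := by rw [rho_inv_mul, mul_one]
    _ = (S.ρ g * X * S.ρ g⁻¹) * S.ρ g := by simp only [mul_assoc]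
    _ = c • (X * S.ρ g) := by rw [hc, smul_mul_assoc]

theorem sq_eq_one_of_conj {X : M2 k} (hX : X.det ≠ 0) {g : Γ} {c : k}
    (hc : S.ρ g * X * S.ρ g⁻¹ = c • X) : c = 1 ∨ c = -1 := by
  have h1 := congrArg Matrix.det hc
  rw [Matrix.det_mul, Matrix.det_mul, Matrix.det_smul, Fintype.card_fin] at h1
  have h2 : (S.ρ g).det * (S.ρ g⁻¹).det = 1 := by
    rw [← Matrix.det_mul, rho_mul_inv, Matrix.det_one]
  have h3 : X.det * (c ^ 2 - 1) = 0 := by
    linear_combination -h1 + X.det * h2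
  have h4 : c * c = 1 := by
    have := (mul_eq_zero.1 h3).resolve_left hX
    linear_combination this
  exact mul_self_eq_one_iff.1 h4

end NoAdLine

open NoAdLine

variable {p : ℕ} {k : Type} [Field k] {Γ : Type} [Group Γ] (S : Setup p k Γ)

theorem noAdLine : S.NoAdLine := by
  intro X hX htr hall
  have h2 : (2 : k) ≠ 0 := two_ne S
  by_cases hdet : X.det = 0
  · -- the image of `X` is a stable line
    obtain ⟨v, hv, hv'⟩ := exists_line X hX hdet
    obtain ⟨g, hg⟩ := S.irr v hv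
    obtain ⟨c, hc⟩ := hall g
    obtain ⟨t, ht⟩ := hv' (S.ρ g) (c • S.ρ g) (by rw [mul_eq_of_conj S hc, mul_smul_comm])
    exact hg t ht
  · -- `ρ g X = ± X ρ g`
    have hodd : ∀ g, g ∉ comm S X → S.ρ g * X = -(X * S.ρ g) := by
      intro g hg
      obtain ⟨c, hc⟩ := hall g
      rcases sq_eq_one_of_conj S hdet hc with rfl | rfl
      · exact absurd (by rw [mem_comm, mul_eq_of_conj S hc, one_smul]) hg
      · rw [mul_eq_of_conj S hc, neg_smul, one_smul]
    have hoo : ∀ a b, a ∉ comm S X → b ∉ comm S X → a * b ∈ comm S X := by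
      intro a b ha hb
      rw [mem_comm, map_mul, mul_assoc, hodd b hb, mul_neg, ← mul_assoc, hodd a ha, neg_mul,
        neg_neg, mul_assoc]
    have hidx : ∀ g₀, g₀ ∉ comm S X → (comm S X).index = 2 := by
      intro g₀ hg₀
      rw [Subgroup.index_eq_two_iff]
      refine ⟨g₀, fun b => ?_⟩
      by_cases hb : b ∈ comm S X
      · refine Or.inr ⟨hb, fun h => hg₀ ?_⟩
        have := (comm S X).mul_mem ((comm S X).inv_mem hb) h
        rwa [inv_mul_cancel_left] at this
      · exact Or.inl ⟨hoo b g₀ hb hg₀, hb⟩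
    by_cases hsq : ∃ l : k, -X.det = l ^ 2
    · -- the image of `X + l` is a line stable under the commutant
      obtain ⟨l, hl⟩ := hsq
      have hM : X + l • (1 : M2 k) ≠ 0 := by
        intro h0
        have h1 := congrArg Matrix.trace h0
        rw [Matrix.trace_add, htr, zero_add, Matrix.trace_smul, Matrix.trace_one, Fintype.card_fin,
          Matrix.trace_zero, smul_eq_mul] at h1
        have h3 : l = 0 := by
          rcases mul_eq_zero.1 h1 with h | h
          · exact h
          · exact absurd (by exact_mod_cast h) h2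
        apply hdet
        rw [h3] at hl
        linear_combination -hl
      have hMdet : (X + l • (1 : M2 k)).det = 0 := by
        rw [det_add_smul_one, htr]
        linear_combination -hl
      obtain ⟨v, hv, hv'⟩ := exists_line _ hM hMdet
      have hG : ∀ g ∈ comm S X, ∃ t : k, S.ρ g *ᵥ v = t • v := by
        intro g hg
        apply hv' (S.ρ g) (S.ρ g)
        rw [mul_add, add_mul, (mem_comm S).1 hg, mul_smul_comm, smul_mul_assoc, mul_one, one_mul]
      by_cases htop : ∀ g, g ∈ comm S X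
      · obtain ⟨g, hg⟩ := S.irr v hv
        obtain ⟨t, ht⟩ := hG g (htop g)
        exact hg t ht
      · push Not at htop
        obtain ⟨g₀, hg₀⟩ := htop
        obtain ⟨g, hg, hg'⟩ := S.irr2 (comm S X) (hidx g₀ hg₀) v hv
        obtain ⟨t, ht⟩ := hG g hg
        exact hg' t ht
    · -- the commutant acts by scalars
      have hscal : ∀ g ∈ comm S X, ∃ β : k, S.ρ g = β • (1 : M2 k) := by
        intro g hg
        obtain ⟨α, β, h1, h2'⟩ := S.split g
        rcases scalar_or_line (S.ρ g) α β h1 h2' with h | ⟨v, hv, hv'⟩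
        · exact ⟨β, h⟩
        · obtain ⟨t, ht⟩ := hv' X ((mem_comm S).1 hg).symm
          exact absurd ⟨t, neg_det_eq_sq X htr v hv t ht⟩ hsq
      by_cases htop : ∀ g, g ∈ comm S X
      · have hv : (![1, 0] : Fin 2 → k) ≠ 0 := by
          intro h
          have := congrFun h 0
          simp at this
        obtain ⟨g, hg⟩ := S.irr _ hv
        obtain ⟨β, hβ⟩ := hscal g (htop g)
        exact hg β (by rw [hβ, Matrix.smul_mulVec, Matrix.one_mulVec])
      · push Not at htop
        obtain ⟨g₀, hg₀⟩ := htop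
        obtain ⟨α, β, h1, h2'⟩ := S.split g₀
        rcases scalar_or_line (S.ρ g₀) α β h1 h2' with h | ⟨w, hw, hw'⟩
        · exact hg₀ (by rw [mem_comm, h, smul_mul_assoc, mul_smul_comm, one_mul, mul_one])
        · obtain ⟨t, ht⟩ := hw' (S.ρ g₀) rfl
          obtain ⟨g, hg⟩ := S.irr w hw
          by_cases hgc : g ∈ comm S X
          · obtain ⟨β', hβ'⟩ := hscal g hgc
            exact hg β' (by rw [hβ', Matrix.smul_mulVec, Matrix.one_mulVec])
          · have hg₀' : g₀⁻¹ ∉ comm S X := fun h => hg₀ (by simpa using (comm S X).inv_mem h)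
            obtain ⟨β', hβ'⟩ := hscal _ (hoo g₀⁻¹ g hg₀' hgc)
            have e : S.ρ g = S.ρ g₀ * S.ρ (g₀⁻¹ * g) := by
              rw [← map_mul, mul_inv_cancel_left]
            refine hg (β' * t) ?_
            rw [e, hβ', mul_smul_comm, mul_one, Matrix.smul_mulVec, ht, smul_smul]

end Fermat.Agent.S56.Sel
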