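/-
S56 / block SEL, node N7 (sub-architect helper182; proof: helper61).
`ad⁰` has no stable line  ⇒  `ad⁰` is irreducible.

`sl₂` with the bracket is `k³` with the cross product: for `X₁, X₂ ∈ U` independent put
`Z = [X₁, X₂] ≠ 0`.  Either some `Y ∈ U` has `tr (Y Z) ≠ 0`, then `X₁, X₂, Y` span `sl₂` (Cramer),
or `Z ⊥ U`, then every conjugate `W` of `Z` is orthogonal to `X₁, X₂`, hence commutes with `Z`
(`[W, [X₁, X₂]] = 2 (tr (W X₁) X₂ - tr (W X₂) X₁)`), hence is proportional to `Z`: a stable line.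
-/
import Fermat.Agent.S56.Sel.Defs

set_option autoImplicit false

namespace Fermat.Agent.S56.Sel

open Matrix

namespace AdIrr

variable {k : Type} [Field k]

theorem exists_rep (A : M2 k) (hA : A.trace = 0) : ∃ a b c : k, A = !![a, b; c, -a] := by
  refine ⟨A 0 0, A 0 1, A 1 0, ?_⟩
  rw [Matrix.trace_fin_two] at hA
  have h : A 1 1 = -A 0 0 := by linear_combination hA
  rw [← h]
  exact Matrix.eta_fin_two A

/-- commuting traceless matrices are proportional -/
theorem prop_of_comm (h2 : (2 : k) ≠ 0) (A B : M2 k) (hA : A.trace = 0) (hB : B.trace = 0)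
    (hA0 : A ≠ 0) (hc : A * B = B * A) : ∃ c : k, B = c • A := by
  obtain ⟨a, b, c, rfl⟩ := exists_rep A hA
  obtain ⟨a', b', c', rfl⟩ := exists_rep B hB
  have e00 := congrFun (congrFun hc 0) 0
  have e01 := congrFun (congrFun hc 0) 1
  have e10 := congrFun (congrFun hc 1) 0
  simp [Matrix.mul_apply, Fin.sum_univ_two] at e00 e01 e10
  have h1 : b * c' = b' * c := by linear_combination e00
  have h2' : a * b' = a' * b := by
    have : (2 : k) * (a * b' - a' * b) = 0 := by linear_combination e01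
    have := (mul_eq_zero.1 this).resolve_left h2
    linear_combination this
  have h3 : a * c' = a' * c := by
    have : (2 : k) * (a * c' - a' * c) = 0 := by linear_combination -e10
    have := (mul_eq_zero.1 this).resolve_left h2
    linear_combination this
  by_cases ha : a = 0
  · by_cases hb : b = 0
    · by_cases hc0 : c = 0
      · exfalso
        apply hA0
        subst ha hb hc0
        ext i j
        fin_cases i <;> fin_cases j <;> simp
      · refine ⟨c' / c, ?_⟩
        ext i j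
        fin_cases i <;> fin_cases j <;> simp <;> field_simp <;>
          first
            | linear_combination h3 | linear_combination -h3
            | linear_combination h1 | linear_combination -h1
    · refine ⟨b' / b, ?_⟩
      ext i j
      fin_cases i <;> fin_cases j <;> simp <;> field_simp <;>
        first
          | linear_combination h2' | linear_combination -h2'
          | linear_combination h1 | linear_combination -h1
  · refine ⟨a' / a, ?_⟩
    ext i j
    fin_cases i <;> fin_cases j <;> simp <;> field_simp <;>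
      first
        | linear_combination h2' | linear_combination -h2'
        | linear_combination h3 | linear_combination -h3

/-- the double bracket in `sl₂` -/
theorem double_bracket (A B C : M2 k) (hA : A.trace = 0) (hB : B.trace = 0) (hC : C.trace = 0) :
    A * (B * C - C * B) - (B * C - C * B) * A =
      (2 : k) • ((A * B).trace • C - (A * C).trace • B) := by
  obtain ⟨a, b, c, rfl⟩ := exists_rep A hA
  obtain ⟨a', b', c', rfl⟩ := exists_rep B hB
  obtain ⟨a'', b'', c'', rfl⟩ := exists_rep C hC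
  ext i j
  fin_cases i <;> fin_cases j <;>
    simp [Matrix.trace_fin_two] <;> ring

/-- Cramer's rule in `sl₂` -/
theorem cramer (X₁ X₂ Y T : M2 k) (h₁ : X₁.trace = 0) (h₂ : X₂.trace = 0) (hY : Y.trace = 0)
    (hT : T.trace = 0) :
    (Y * (X₁ * X₂ - X₂ * X₁)).trace • T =
      (T * (X₂ * Y - Y * X₂)).trace • X₁ + (T * (Y * X₁ - X₁ * Y)).trace • X₂ +
        (T * (X₁ * X₂ - X₂ * X₁)).trace • Y := by
  obtain ⟨a, b, c, rfl⟩ := exists_rep X₁ h₁
  obtain ⟨a', b', c', rfl⟩ := exists_rep X₂ h₂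
  obtain ⟨a'', b'', c'', rfl⟩ := exists_rep Y hY
  obtain ⟨t, u, v, rfl⟩ := exists_rep T hT
  ext i j
  fin_cases i <;> fin_cases j <;>
    simp [Matrix.trace_fin_two] <;> ring

end AdIrr

variable {p : ℕ} {k : Type} [Field k] {Γ : Type} [Group Γ] (S : Setup p k Γ)

include S in
theorem AdIrr.two_ne_zero : (2 : k) ≠ 0 := by
  haveI := S.char
  intro h
  have h' : ((2 : ℕ) : k) = 0 := by exact_mod_cast h
  rw [CharP.cast_eq_zero_iff k p 2] at h'
  exact S.hp2 ((Nat.prime_dvd_prime_iff_eq S.hp Nat.prime_two).1 h')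

theorem AdIrr.inv_mul (g : Γ) : S.ρ g⁻¹ * S.ρ g = 1 := by
  rw [← map_mul, inv_mul_cancel, map_one]

theorem adIrr (h : S.NoAdLine) : S.AdIrr := by
  intro U hUtr hUst hU0 T hT
  have h2 : (2 : k) ≠ 0 := AdIrr.two_ne_zero S
  obtain ⟨X₁, hX₁, hX₁0⟩ := hU0
  have ht₁ := hUtr X₁ hX₁
  have hg := h X₁ hX₁0 ht₁
  push Not at hg
  obtain ⟨g, hg⟩ := hg
  set X₂ : M2 k := S.ρ g * X₁ * S.ρ g⁻¹ with hX₂def
  have hX₂ : X₂ ∈ U := hUst g X₁ hX₁
  have ht₂ := hUtr X₂ hX₂
  set Z : M2 k := X₁ * X₂ - X₂ * X₁ with hZdef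
  have hZtr : Z.trace = 0 := by
    rw [hZdef, Matrix.trace_sub, Matrix.trace_mul_comm, sub_self]
  have hZ0 : Z ≠ 0 := by
    intro h0
    obtain ⟨c, hc⟩ := AdIrr.prop_of_comm h2 X₁ X₂ ht₁ ht₂ hX₁0 (sub_eq_zero.1 h0)
    exact hg c hc
  by_cases hcase : ∃ Y ∈ U, (Y * Z).trace ≠ 0
  · obtain ⟨Y, hY, hYZ⟩ := hcase
    have hcr := AdIrr.cramer X₁ X₂ Y T ht₁ ht₂ (hUtr Y hY) hT
    have hmem : (Y * Z).trace • T ∈ U := by
      rw [hZdef, hcr]
      exact U.add_mem (U.add_mem (U.smul_mem _ hX₁) (U.smul_mem _ hX₂)) (U.smul_mem _ hY)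
    have := U.smul_mem ((Y * Z).trace)⁻¹ hmem
    rwa [smul_smul, inv_mul_cancel₀ hYZ, one_smul] at this
  · exfalso
    push Not at hcase
    refine h Z hZ0 hZtr fun γ => ?_
    set W : M2 k := S.ρ γ * Z * S.ρ γ⁻¹ with hWdef
    have hWtr : W.trace = 0 := by
      rw [hWdef, Matrix.trace_mul_comm, ← Matrix.mul_assoc, AdIrr.inv_mul, Matrix.one_mul, hZtr]
    have hperp : ∀ X ∈ U, (W * X).trace = 0 := by
      intro X hX
      have h1 : S.ρ γ⁻¹ * X * S.ρ γ ∈ U := by
        have := hUst γ⁻¹ X hX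
        rwa [inv_inv] at this
      have h3 := hcase _ h1
      have e : (W * X).trace = (S.ρ γ⁻¹ * X * S.ρ γ * Z).trace := by
        rw [hWdef]
        calc (S.ρ γ * Z * S.ρ γ⁻¹ * X).trace = (S.ρ γ * (Z * S.ρ γ⁻¹ * X)).trace := by
              simp only [Matrix.mul_assoc]
          _ = (Z * S.ρ γ⁻¹ * X * S.ρ γ).trace := Matrix.trace_mul_comm _ _
          _ = (Z * (S.ρ γ⁻¹ * X * S.ρ γ)).trace := by simp only [Matrix.mul_assoc]
          _ = (S.ρ γ⁻¹ * X * S.ρ γ * Z).trace := Matrix.trace_mul_comm _ _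
      rw [e, h3]
    have hdb := AdIrr.double_bracket W X₁ X₂ hWtr ht₁ ht₂
    rw [hperp X₁ hX₁, hperp X₂ hX₂, zero_smul, zero_smul, sub_zero, smul_zero, ← hZdef] at hdb
    exact AdIrr.prop_of_comm h2 Z W hZtr hWtr hZ0 (sub_eq_zero.1 hdb).symm

end Fermat.Agent.S56.Sel
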