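/-
S56 / block SEL, node N11 (sub-architect helper182, proof helper161):
if the cocycle `Y` does not vanish on `H ∩ ker ρ`, then `τ` does not vanish on the regular
elements of `H`.
-/
import Fermat.Agent.S56.Sel.Defs

set_option autoImplicit false

namespace Fermat.Agent.S56.Sel

open Matrix

variable {p : ℕ} {k : Type} [Field k] {Γ : Type} [Group Γ] (S : Setup p k Γ)

namespace Beta

include S in
theorem two_ne : (2 : k) ≠ 0 := by
  have := S.char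
  intro h
  have h2 : ((2 : ℕ) : k) = 0 := by exact_mod_cast h
  rw [CharP.cast_eq_zero_iff k p 2] at h2
  exact S.hp2 ((Nat.prime_dvd_prime_iff_eq S.hp Nat.prime_two).1 h2)

theorem rho_mul_inv (g : Γ) : S.ρ g * S.ρ g⁻¹ = 1 := by
  rw [← map_mul, mul_inv_cancel, map_one]

theorem rho_inv_mul (g : Γ) : S.ρ g⁻¹ * S.ρ g = 1 := by
  rw [← map_mul, inv_mul_cancel, map_one]

theorem rho_inv_of_one {κ : Γ} (h : S.ρ κ = 1) : S.ρ κ⁻¹ = 1 := by
  have := rho_mul_inv S κ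
  rwa [h, one_mul] at this

theorem Y_ker_mul {Y : Γ → M2 k} (hY : S.IsCocycle Y) {κ : Γ} (h : S.ρ κ = 1) (g : Γ) :
    Y (κ * g) = Y κ + Y g := by
  rw [hY.coc, h, rho_inv_of_one S h, det_one, one_smul, one_mul, mul_one]

theorem Y_conj {Y : Γ → M2 k} (hY : S.IsCocycle Y) {κ : Γ} (h : S.ρ κ = 1) (g : Γ) :
    Y κ = (S.ρ g).det • (S.ρ g * Y (g⁻¹ * κ * g) * S.ρ g⁻¹) := by
  have h1 := Y_ker_mul S hY h g
  have h2 : κ * g = g * (g⁻¹ * κ * g) := by group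
  rw [h2, hY.coc, add_comm] at h1
  exact (add_right_cancel h1).symm

theorem rho_conj {κ : Γ} (h : S.ρ κ = 1) (g : Γ) : S.ρ (g⁻¹ * κ * g) = 1 := by
  rw [map_mul, map_mul, h, mul_one, rho_inv_mul]

theorem conj_mem {κ : Γ} (h : κ ∈ S.H) (g : Γ) : g⁻¹ * κ * g ∈ S.H := by
  have := S.normal.conj_mem κ h g⁻¹
  rwa [inv_inv] at this

/-- The orthogonal complement of `Y (H ∩ ker ρ)` in `ad⁰`. -/
def U (Y : Γ → M2 k) : Submodule k (M2 k) where
  carrier := {X | X.trace = 0 ∧ ∀ κ ∈ S.H, S.ρ κ = 1 → (Y κ * X).trace = 0}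
  add_mem' := by
    rintro a b ⟨ha, ha'⟩ ⟨hb, hb'⟩
    refine ⟨by rw [trace_add, ha, hb, add_zero], fun κ hκ h => ?_⟩
    rw [mul_add, trace_add, ha' κ hκ h, hb' κ hκ h, add_zero]
  zero_mem' := ⟨trace_zero _ _, fun κ _ _ => by rw [mul_zero, trace_zero]⟩
  smul_mem' := by
    rintro c x ⟨hx, hx'⟩
    refine ⟨by rw [trace_smul, hx, smul_zero], fun κ hκ h => ?_⟩
    rw [mul_smul_comm, trace_smul, hx' κ hκ h, smul_zero]

theorem mem_U (Y : Γ → M2 k) (X : M2 k) :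
    X ∈ U S Y ↔ X.trace = 0 ∧ ∀ κ ∈ S.H, S.ρ κ = 1 → (Y κ * X).trace = 0 := Iff.rfl

theorem trace_conj (g : Γ) (X : M2 k) : (S.ρ g * X * S.ρ g⁻¹).trace = X.trace := by
  rw [trace_mul_comm, ← mul_assoc, rho_inv_mul, one_mul]

theorem U_stable {Y : Γ → M2 k} (hY : S.IsCocycle Y) (g : Γ) (X : M2 k) (hX : X ∈ U S Y) :
    S.ρ g * X * S.ρ g⁻¹ ∈ U S Y := by
  obtain ⟨hX0, hX1⟩ := hX
  refine ⟨by rw [trace_conj, hX0], fun κ hκ h => ?_⟩
  rw [Y_conj S hY h g, smul_mul_assoc, trace_smul]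
  have h1 : S.ρ g * Y (g⁻¹ * κ * g) * S.ρ g⁻¹ * (S.ρ g * X * S.ρ g⁻¹) =
      S.ρ g * (Y (g⁻¹ * κ * g) * X) * S.ρ g⁻¹ := by
    calc S.ρ g * Y (g⁻¹ * κ * g) * S.ρ g⁻¹ * (S.ρ g * X * S.ρ g⁻¹)
        = S.ρ g * Y (g⁻¹ * κ * g) * (S.ρ g⁻¹ * S.ρ g) * X * S.ρ g⁻¹ := by
          simp only [mul_assoc]
      _ = S.ρ g * (Y (g⁻¹ * κ * g) * X) * S.ρ g⁻¹ := by
          rw [rho_inv_mul, mul_one]; simp only [mul_assoc]
  rw [h1, trace_conj, hX1 _ (conj_mem S hκ g) (rho_conj S h g), smul_zero]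

/-- A traceless matrix orthogonal to all traceless matrices vanishes. -/
theorem eq_zero_of_orth (h2 : (2 : k) ≠ 0) (A : M2 k) (hA : A.trace = 0)
    (h : ∀ X : M2 k, X.trace = 0 → (A * X).trace = 0) : A = 0 := by
  have e1 := h !![0, 1; 0, 0] (by simp [trace_fin_two])
  have e2 := h !![0, 0; 1, 0] (by simp [trace_fin_two])
  have e3 := h !![1, 0; 0, -1] (by simp [trace_fin_two])
  rw [eta_fin_two A] at e1 e2 e3
  simp [trace_fin_two] at e1 e2 e3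
  rw [trace_fin_two] at hA
  have h00 : A 0 0 = 0 := by
    have : 2 * A 0 0 = 0 := by linear_combination hA + e3
    exact (mul_eq_zero.1 this).resolve_left h2
  have h11 : A 1 1 = 0 := by linear_combination hA - h00
  ext i j
  fin_cases i <;> fin_cases j <;> simp [h00, h11, e1, e2]

theorem disc_smul_one (c : k) : disc (c • (1 : M2 k)) = 0 := by
  rw [disc, trace_fin_two, det_fin_two]
  simp
  ring

end Beta

open Beta in
theorem not_regVanish_of_beta (ha : S.AdIrr) (hr : S.HasReg) {Y : Γ → M2 k} (hY : S.IsCocycle Y)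
    (hb : ¬ S.BetaZero Y) : ¬ S.RegVanish Y := by
  intro hv
  apply hb
  obtain ⟨s, hs, hd⟩ := hr
  have h2 : (2 : k) ≠ 0 := two_ne S
  -- orthogonality to `ρ s`
  have key : ∀ κ ∈ S.H, S.ρ κ = 1 → (Y κ * S.ρ s).trace = 0 := by
    intro κ hκ h
    have hρ : S.ρ (κ * s) = S.ρ s := by rw [map_mul, h, one_mul]
    have h1 : S.tau Y (κ * s) = 0 := hv _ (S.H.mul_mem hκ hs) (by rw [hρ]; exact hd)
    have h3 : S.tau Y s = 0 := hv _ hs hd
    rw [Setup.tau, hρ, Y_ker_mul S hY h, add_mul, trace_add] at h1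
    rw [Setup.tau] at h3
    rwa [h3, add_zero] at h1
  set g₀ : M2 k := S.ρ s - ((S.ρ s).trace / 2) • (1 : M2 k) with hg₀
  have hg₀tr : g₀.trace = 0 := by
    rw [hg₀, trace_sub, trace_smul, trace_one, Fintype.card_fin, smul_eq_mul]
    push_cast
    field_simp
    ring
  have hg₀ne : g₀ ≠ 0 := by
    intro h0
    apply hd
    rw [hg₀, sub_eq_zero] at h0
    rw [h0]
    exact disc_smul_one _
  have hg₀U : g₀ ∈ U S Y := by
    refine ⟨hg₀tr, fun κ hκ h => ?_⟩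
    rw [hg₀, mul_sub, trace_sub, key κ hκ h, mul_smul_comm, mul_one, trace_smul, hY.tr, smul_zero,
      sub_zero]
  have hall := ha (U S Y) (fun X hX => hX.1) (fun g X hX => U_stable S hY g X hX)
    ⟨g₀, hg₀U, hg₀ne⟩
  intro κ hκ h
  exact eq_zero_of_orth h2 (Y κ) (hY.tr κ) (fun X hX => (hall X hX).2 κ hκ h)

end Fermat.Agent.S56.Sel
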