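/-
S56 / block SEL, node N9 (helper151): if `τ = tr (Y ρ)` vanishes on `H` then `Y|H` is a coboundary.
`s ↦ Y s * ρ s` extends to a derivation of `M₂(k) = span ρ(H)`, which is inner.
-/
import Fermat.Agent.S56.Sel.Defs

set_option autoImplicit false

namespace Fermat.Agent.S56.Sel

open Matrix

variable {p : ℕ} {k : Type} [Field k] {Γ : Type} [Group Γ] (S : Setup p k Γ)

namespace CobH

theorem rho_mul_inv (g : Γ) : S.ρ g * S.ρ g⁻¹ = 1 := by
  rw [← map_mul, mul_inv_cancel, map_one]

theorem rho_inv_mul (g : Γ) : S.ρ g⁻¹ * S.ρ g = 1 := by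
  rw [← map_mul, inv_mul_cancel, map_one]

include S in
theorem two_ne : (2 : k) ≠ 0 := by
  have := S.char
  intro h
  have h2 : ((2 : ℕ) : k) = 0 := by exact_mod_cast h
  rw [CharP.cast_eq_zero_iff k p 2] at h2
  exact S.hp2 ((Nat.prime_dvd_prime_iff_eq S.hp Nat.prime_two).1 h2)

/-- `Z s = Y s * ρ s` satisfies the Leibniz rule on `H`. -/
theorem leibniz {Y : Γ → M2 k} (hY : S.IsCocycle Y) {s : Γ} (hs : s ∈ S.H) (t : Γ) :
    Y (s * t) * S.ρ (s * t) = Y s * S.ρ s * S.ρ t + S.ρ s * (Y t * S.ρ t) := by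
  rw [hY.coc s t, S.det_H s hs, one_smul, map_mul, add_mul]
  congr 1
  · rw [mul_assoc]
  · calc S.ρ s * Y t * S.ρ s⁻¹ * (S.ρ s * S.ρ t)
        = S.ρ s * Y t * (S.ρ s⁻¹ * S.ρ s) * S.ρ t := by simp only [mul_assoc]
      _ = S.ρ s * (Y t * S.ρ t) := by rw [rho_inv_mul, mul_one, mul_assoc]

/-- a linear statement which holds on `ρ(H)` holds everywhere -/
theorem span_ext (hs : S.SpanH) {V : Type} [AddCommGroup V] [Module k V] (f g : M2 k →ₗ[k] V)
    (h : ∀ s ∈ S.H, f (S.ρ s) = g (S.ρ s)) : f = g := by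
  ext1 A
  have hA := hs A
  induction hA using Submodule.span_induction with
  | mem x hx =>
    obtain ⟨s, hs', rfl⟩ := hx
    exact h s hs'
  | zero => rw [map_zero, map_zero]
  | add x y _ _ hx hy => rw [map_add, map_add, hx, hy]
  | smul a x _ hx => rw [map_smul, map_smul, hx]

end CobH

open CobH in
theorem cobH_of_tau (hD : DerivInner k) (hs : S.SpanH) {Y : Γ → M2 k} (hY : S.IsCocycle Y)
    (h : ∀ s ∈ S.H, S.tau Y s = 0) : S.IsCobH Y := by
  classical
  let L : (S.H →₀ k) →ₗ[k] M2 k := Finsupp.linearCombination k (fun s : S.H => S.ρ s)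
  let L' : (S.H →₀ k) →ₗ[k] M2 k :=
    Finsupp.linearCombination k (fun s : S.H => Y s * S.ρ s)
  have hL1 : ∀ (s : S.H) (c : k), L (Finsupp.single s c) = c • S.ρ s := fun s c =>
    Finsupp.linearCombination_single k c s
  have hL'1 : ∀ (s : S.H) (c : k), L' (Finsupp.single s c) = c • (Y s * S.ρ s) := fun s c =>
    Finsupp.linearCombination_single k c s
  have hLsurj : Function.Surjective L := by
    rw [← LinearMap.range_eq_top, Finsupp.range_linearCombination, eq_top_iff]
    intro A _
    have hA := hs A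
    have hset : S.ρ '' (S.H : Set Γ) = Set.range (fun s : S.H => S.ρ s) := by
      ext B
      constructor
      · rintro ⟨s, hs', rfl⟩
        exact ⟨⟨s, hs'⟩, rfl⟩
      · rintro ⟨s, rfl⟩
        exact ⟨s, s.2, rfl⟩
    rwa [hset] at hA
  -- the key identity
  have hkey : ∀ (t : Γ), t ∈ S.H → ∀ f : S.H →₀ k,
      (L' f * S.ρ t).trace + (L f * (Y t * S.ρ t)).trace = 0 := by
    intro t ht f
    induction f using Finsupp.induction_linear with
    | zero => simp
    | add f g hf hg =>
      rw [map_add, map_add, add_mul, add_mul, trace_add, trace_add]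
      linear_combination hf + hg
    | single s c =>
      rw [hL1, hL'1, smul_mul_assoc, smul_mul_assoc, trace_smul, trace_smul, ← smul_add,
        ← trace_add, ← leibniz S hY s.2 t]
      have := h (s * t) (S.H.mul_mem s.2 ht)
      rw [Setup.tau] at this
      rw [this, smul_zero]
  have hker : ∀ f : S.H →₀ k, L f = 0 → L' f = 0 := by
    intro f hf
    rw [Matrix.ext_iff_trace_mul_right]
    intro A
    rw [zero_mul, trace_zero]
    have h1 : ((Matrix.traceLinearMap (Fin 2) k k).comp (LinearMap.mulLeft k (L' f))) = 0 := by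
      refine span_ext S hs _ _ fun t ht => ?_
      have := hkey t ht f
      rw [hf, zero_mul, trace_zero, add_zero] at this
      simpa using this
    have := LinearMap.congr_fun h1 A
    simpa using this
  obtain ⟨g, hg⟩ := L.exists_rightInverse_of_surjective (LinearMap.range_eq_top.2 hLsurj)
  let D : M2 k →ₗ[k] M2 k := L'.comp g
  have hDL : ∀ f, D (L f) = L' f := by
    intro f
    have h1 : L (g (L f) - f) = 0 := by
      rw [map_sub, sub_eq_zero]
      exact LinearMap.congr_fun hg (L f)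
    have h2 := hker _ h1
    rw [map_sub, sub_eq_zero] at h2
    exact h2
  have hDρ : ∀ s ∈ S.H, D (S.ρ s) = Y s * S.ρ s := by
    intro s hs'
    have := hDL (Finsupp.single ⟨s, hs'⟩ 1)
    rwa [hL1, hL'1, one_smul, one_smul] at this
  -- `D` is a derivation
  have hder1 : ∀ t ∈ S.H, ∀ A, D (A * S.ρ t) = D A * S.ρ t + A * D (S.ρ t) := by
    intro t ht A
    have h1 : D.comp (LinearMap.mulRight k (S.ρ t)) =
        (LinearMap.mulRight k (S.ρ t)).comp D + LinearMap.mulRight k (D (S.ρ t)) := by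
      refine span_ext S hs _ _ fun s hs' => ?_
      simp only [LinearMap.comp_apply, LinearMap.mulRight_apply, LinearMap.add_apply]
      rw [← map_mul, hDρ _ (S.H.mul_mem hs' ht), hDρ s hs', hDρ t ht, leibniz S hY hs' t]
    have := LinearMap.congr_fun h1 A
    simpa using this
  have hder : ∀ A B, D (A * B) = D A * B + A * D B := by
    intro A B
    have h1 : D.comp (LinearMap.mulLeft k A) =
        LinearMap.mulLeft k (D A) + (LinearMap.mulLeft k A).comp D := by
      refine span_ext S hs _ _ fun t ht => ?_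
      simp only [LinearMap.comp_apply, LinearMap.mulLeft_apply, LinearMap.add_apply]
      exact hder1 t ht A
    have := LinearMap.congr_fun h1 B
    simpa using this
  obtain ⟨X₁, hX₁⟩ := hD D hder
  have h2 : (2 : k) ≠ 0 := two_ne S
  refine ⟨-(X₁ - (X₁.trace / 2) • (1 : M2 k)), ?_, ?_⟩
  · rw [trace_neg, trace_sub, trace_smul, trace_one, Fintype.card_fin, smul_eq_mul]
    push_cast
    field_simp
    ring
  · intro s hs'
    have h3 : Y s * S.ρ s = X₁ * S.ρ s - S.ρ s * X₁ := by rw [← hDρ s hs', hX₁]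
    have h4 : Y s = X₁ - S.ρ s * X₁ * S.ρ s⁻¹ := by
      calc Y s = Y s * S.ρ s * S.ρ s⁻¹ := by rw [mul_assoc, rho_mul_inv, mul_one]
        _ = X₁ - S.ρ s * X₁ * S.ρ s⁻¹ := by
          rw [h3, sub_mul, mul_assoc X₁, rho_mul_inv, mul_one]
    rw [h4, mul_neg, neg_mul, mul_sub, sub_mul, mul_smul_comm, smul_mul_assoc, mul_one,
      rho_mul_inv]
    abel
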