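/-
S56 / block SEL (sub-architect helper182), node N8 (proof: helper190):
every `k`-linear derivation of `M₂(k)` is inner.
-/
import Fermat.Agent.S56.Sel.Defs

set_option autoImplicit false

namespace Fermat.Agent.S56.Sel

open Matrix

namespace Deriv

variable {k : Type} [Field k]

/-- The matrix units. -/
def e (k : Type) [Field k] (i j : Fin 2) : M2 k := Matrix.single i j 1

theorem e_apply (i j a b : Fin 2) : e k i j a b = if i = a ∧ j = b then 1 else 0 := by
  rw [e, Matrix.single_apply]

theorem mul_e_col (A : M2 k) (i : Fin 2) : A * e k i 0 = ∑ j, A j i • e k j 0 := by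
  ext a b
  fin_cases i <;> fin_cases a <;> fin_cases b <;>
    simp [Matrix.mul_apply, Fin.sum_univ_two, e_apply, Matrix.sum_apply]

theorem e_row_mul (A : M2 k) (j : Fin 2) : e k 0 j * A = ∑ i, A j i • e k 0 i := by
  ext a b
  fin_cases j <;> fin_cases a <;> fin_cases b <;>
    simp [Matrix.mul_apply, Fin.sum_univ_two, e_apply, Matrix.sum_apply]

theorem sum_e_mul_e : ∑ i : Fin 2, e k i 0 * e k 0 i = 1 := by
  ext a b
  fin_cases a <;> fin_cases b <;>
    simp [Matrix.mul_apply, Fin.sum_univ_two, e_apply, Matrix.sum_apply]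

end Deriv

open Deriv in
theorem derivInner (k : Type) [Field k] : DerivInner k := by
  intro D hD
  refine ⟨∑ i, D (e k i 0) * e k 0 i, fun A => ?_⟩
  have h4 : ∀ i : Fin 2, A * D (e k i 0) = D (A * e k i 0) - D A * e k i 0 := by
    intro i
    rw [hD]
    abel
  have hAX : A * ∑ i, D (e k i 0) * e k 0 i = ∑ i, D (A * e k i 0) * e k 0 i - D A := by
    rw [Finset.mul_sum]
    have : ∀ i : Fin 2, A * (D (e k i 0) * e k 0 i) =
        D (A * e k i 0) * e k 0 i - D A * (e k i 0 * e k 0 i) := by
      intro i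
      rw [← mul_assoc, h4, sub_mul, mul_assoc (D A)]
    rw [Finset.sum_congr rfl fun i _ => this i, Finset.sum_sub_distrib, ← Finset.mul_sum,
      sum_e_mul_e, mul_one]
  have hXA : (∑ i, D (e k i 0) * e k 0 i) * A = ∑ i, D (A * e k i 0) * e k 0 i := by
    rw [Finset.sum_mul]
    simp only [mul_assoc, e_row_mul, mul_e_col, map_sum, map_smul,
      Finset.mul_sum, Finset.sum_mul, smul_mul_assoc, mul_smul_comm]
    exact Finset.sum_comm
  rw [hAX, hXA]
  abel

end Fermat.Agent.S56.Sel
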