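/-
S56 / block SEL (sub-architect helper182), node N15 (helper145): the Frattini argument.
Sylow conjugacy in the finite group `ρ(H)`; two unipotent elements `1 + n`, `1 + m` of a `p`-group
have a unipotent product, so `tr (n m) = 0`, so `m` is proportional to `n`.
-/
import Fermat.Agent.S56.Sel.Defs

set_option autoImplicit false

namespace Fermat.Agent.S56.Sel

open Matrix
open scoped Pointwise

namespace Frattini

/-- Sylow: two elements of order dividing `p` can be conjugated into one `p`-subgroup. -/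
theorem exists_conj_pow {G : Type*} [Group G] [Finite G] {p : ℕ} [Fact p.Prime] (u u' : G)
    (hu : u ^ p = 1) (hu' : u' ^ p = 1) :
    ∃ (y : G) (a : ℕ), (u * (y * u' * y⁻¹)) ^ p ^ a = 1 := by
  have hP : ∀ v : G, v ^ p = 1 → IsPGroup p (Subgroup.zpowers v) := by
    rintro v hv ⟨g, hg⟩
    obtain ⟨j, rfl⟩ := Subgroup.mem_zpowers_iff.1 hg
    refine ⟨1, Subtype.ext ?_⟩
    show (v ^ j) ^ p ^ 1 = 1
    rw [pow_one, ← zpow_natCast, ← _root_.zpow_mul, mul_comm, _root_.zpow_mul, zpow_natCast, hv,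
      _root_.one_zpow]
  obtain ⟨Q, hQ⟩ := (hP u hu).exists_le_sylow
  obtain ⟨Q', hQ'⟩ := (hP u' hu').exists_le_sylow
  obtain ⟨y, hy⟩ := MulAction.exists_smul_eq G Q' Q
  have h1 : u ∈ Q := hQ (Subgroup.mem_zpowers u)
  have h2 : u' ∈ Q' := hQ' (Subgroup.mem_zpowers u')
  have h3 : y * u' * y⁻¹ ∈ Q := by
    have h4 : MulAut.conj y • u' ∈ MulAut.conj y • (Q' : Subgroup G) :=
      Subgroup.smul_mem_pointwise_smul _ _ _ h2
    rw [← Sylow.coe_subgroup_smul, hy] at h4
    exact h4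
  obtain ⟨a, ha⟩ := Q.isPGroup' ⟨u * (y * u' * y⁻¹), Q.mul_mem h1 h3⟩
  exact ⟨y, a, congrArg Subtype.val ha⟩

/-- the same for a homomorphism to a finite group -/
theorem exists_conj_pow_map {H G : Type*} [Group H] [Group G] [Finite G] {p : ℕ} [Fact p.Prime]
    (f : H →* G) (x x' : H) (hx : f x ^ p = 1) (hx' : f x' ^ p = 1) :
    ∃ (h : H) (a : ℕ), f (x * (h * x' * h⁻¹)) ^ p ^ a = 1 := by
  obtain ⟨y, a, hya⟩ := exists_conj_pow (p := p) (f.rangeRestrict x) (f.rangeRestrict x')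
    (Subtype.ext hx) (Subtype.ext hx')
  obtain ⟨h, rfl⟩ := f.rangeRestrict_surjective y
  refine ⟨h, a, ?_⟩
  rw [← map_inv, ← map_mul, ← map_mul, ← map_mul] at hya
  exact congrArg Subtype.val hya

variable {k : Type} [Field k]

theorem trace_eq_zero_of_sq {n : M2 k} (hn : n * n = 0) : n.trace = 0 :=
  (Matrix.isNilpotent_trace_of_isNilpotent ⟨2, by rw [sq, hn]⟩).eq_zero

/-- two square zero matrices with `tr (n m) = 0` are proportional; case `n 0 1 ≠ 0` -/
theorem proportional_aux {n m : M2 k} (hn : n * n = 0) (hm : m * m = 0) (hb : n 0 1 ≠ 0)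
    (ht : (n * m).trace = 0) : ∃ c : k, m = c • n := by
  have hnt := trace_eq_zero_of_sq hn
  have hmt := trace_eq_zero_of_sq hm
  rw [Matrix.trace_fin_two] at hnt hmt
  have N : n 0 0 * n 0 0 + n 0 1 * n 1 0 = 0 := by
    have := congrFun (congrFun hn 0) 0
    simpa [Matrix.mul_apply, Fin.sum_univ_two] using this
  have M : m 0 0 * m 0 0 + m 0 1 * m 1 0 = 0 := by
    have := congrFun (congrFun hm 0) 0
    simpa [Matrix.mul_apply, Fin.sum_univ_two] using this
  have T : n 0 0 * m 0 0 + n 0 1 * m 1 0 + (n 1 0 * m 0 1 + n 1 1 * m 1 1) = 0 := by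
    simpa [Matrix.trace_fin_two, Matrix.mul_apply, Fin.sum_univ_two] using ht
  have hd : n 1 1 = - n 0 0 := by linear_combination hnt
  have hd' : m 1 1 = - m 0 0 := by linear_combination hmt
  rw [hd, hd'] at T
  have K2 : (n 0 1 * m 0 0 - n 0 0 * m 0 1) ^ 2 = 0 := by
    linear_combination (n 0 1) ^ 2 * M + (m 0 1) ^ 2 * N - n 0 1 * m 0 1 * T
  have K : n 0 1 * m 0 0 - n 0 0 * m 0 1 = 0 := by
    exact pow_eq_zero_iff (two_ne_zero) |>.1 K2
  have hc : n 0 1 * m 1 0 = m 0 1 * n 1 0 := by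
    apply mul_left_cancel₀ hb
    linear_combination n 0 1 * T - 2 * n 0 0 * K - 2 * m 0 1 * N
  refine ⟨m 0 1 / n 0 1, ?_⟩
  ext i j
  fin_cases i <;> fin_cases j
  · show m 0 0 = m 0 1 / n 0 1 * n 0 0
    field_simp
    linear_combination K
  · show m 0 1 = m 0 1 / n 0 1 * n 0 1
    field_simp
  · show m 1 0 = m 0 1 / n 0 1 * n 1 0
    field_simp
    linear_combination hc
  · show m 1 1 = m 0 1 / n 0 1 * n 1 1
    rw [hd, hd']
    field_simp
    linear_combination -K

/-- two square zero matrices with `tr (n m) = 0` are proportional -/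
theorem proportional {n m : M2 k} (hn : n * n = 0) (hm : m * m = 0) (hn0 : n ≠ 0)
    (ht : (n * m).trace = 0) : ∃ c : k, m = c • n := by
  by_cases hb : n 0 1 = 0
  · by_cases hc : n 1 0 = 0
    · exfalso
      apply hn0
      have hnt := trace_eq_zero_of_sq hn
      rw [Matrix.trace_fin_two] at hnt
      have N : n 0 0 * n 0 0 + n 0 1 * n 1 0 = 0 := by
        have := congrFun (congrFun hn 0) 0
        simpa [Matrix.mul_apply, Fin.sum_univ_two] using this
      rw [hb, zero_mul, add_zero] at N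
      have ha : n 0 0 = 0 := mul_self_eq_zero.1 N
      have hd : n 1 1 = 0 := by rw [ha, zero_add] at hnt; exact hnt
      ext i j
      fin_cases i <;> fin_cases j
      · exact ha
      · exact hb
      · exact hc
      · exact hd
    · -- transpose
      have h1 : nᵀ * nᵀ = 0 := by rw [← Matrix.transpose_mul, hn, Matrix.transpose_zero]
      have h2 : mᵀ * mᵀ = 0 := by rw [← Matrix.transpose_mul, hm, Matrix.transpose_zero]
      have h3 : (nᵀ * mᵀ).trace = 0 := by
        rw [← Matrix.transpose_mul, Matrix.trace_transpose, Matrix.trace_mul_comm, ht]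
      obtain ⟨c, hc'⟩ := proportional_aux h1 h2 (by simpa using hc) h3
      refine ⟨c, ?_⟩
      have := congrArg Matrix.transpose hc'
      simpa using this
  · exact proportional_aux hn hm hb ht

/-- an element of `p`-power order has trace two -/
theorem trace_sub_one_eq_zero {p : ℕ} [Fact p.Prime] [CharP k p] {w : M2 k} {a : ℕ}
    (hw : w ^ p ^ a = 1) : (w - 1).trace = 0 := by
  have h1 : (w - 1) ^ p ^ a = 0 := by
    rw [sub_pow_char_pow_of_commute p a (Commute.one_right w), hw, one_pow, sub_self]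
  exact (Matrix.isNilpotent_trace_of_isNilpotent ⟨_, h1⟩).eq_zero

theorem one_add_pow_eq_one {p : ℕ} [hp : Fact p.Prime] [CharP k p] {n : M2 k} (hn : n * n = 0) :
    (1 + n) ^ p = 1 := by
  rw [add_pow_char_of_commute p (Commute.one_left n), one_pow]
  obtain ⟨j, hj⟩ : ∃ j, p = j + 2 := ⟨p - 2, by have := hp.out.two_le; omega⟩
  rw [hj, pow_add, sq, hn, mul_zero, add_zero]

end Frattini

variable {p : ℕ} {k : Type} [Field k] {Γ : Type} [Group Γ] (S : Setup p k Γ)

theorem frattini : S.Frattini := by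
  intro x hx n hn0 hnn hρx g₀
  have : Fact p.Prime := ⟨S.hp⟩
  have := S.char
  have := S.fin
  let f : S.H →* (M2 k)ˣ := S.ρ.toHomUnits.comp S.H.subtype
  have hf : ∀ t : S.H, ((f t : (M2 k)ˣ) : M2 k) = S.ρ (t : Γ) := fun _ => rfl
  have hx' : g₀ * x * g₀⁻¹ ∈ S.H := S.normal.conj_mem x hx g₀
  have hxp : S.ρ x ^ p = 1 := by rw [hρx, Frattini.one_add_pow_eq_one hnn]
  have h1 : f ⟨x, hx⟩ ^ p = 1 := by
    apply Units.ext
    rw [Units.val_pow_eq_pow_val, hf]
    exact hxp
  have h2 : f ⟨g₀ * x * g₀⁻¹, hx'⟩ ^ p = 1 := by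
    apply Units.ext
    rw [Units.val_pow_eq_pow_val, hf]
    show S.ρ (g₀ * x * g₀⁻¹) ^ p = 1
    rw [← map_pow, conj_pow, map_mul, map_mul, map_pow, hxp, mul_one, ← map_mul, mul_inv_cancel,
      map_one]
  obtain ⟨h, a, hha⟩ := Frattini.exists_conj_pow_map (p := p) f ⟨x, hx⟩ ⟨g₀ * x * g₀⁻¹, hx'⟩ h1 h2
  refine ⟨h, h.2, ?_⟩
  set P : M2 k := S.ρ (h * g₀) with hP
  set P' : M2 k := S.ρ (h * g₀)⁻¹ with hP'
  have hPP' : P * P' = 1 := by rw [hP, hP', ← map_mul, mul_inv_cancel, map_one]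
  have hP'P : P' * P = 1 := by rw [hP, hP', ← map_mul, inv_mul_cancel, map_one]
  have hw : ((1 + n) * (1 + P * n * P')) ^ p ^ a = 1 := by
    have h3 := congrArg (fun z : (M2 k)ˣ => (z : M2 k)) hha
    simp only [Units.val_pow_eq_pow_val, Units.val_one, hf] at h3
    have h4 : S.ρ ((⟨x, hx⟩ * (h * ⟨g₀ * x * g₀⁻¹, hx'⟩ * h⁻¹) : S.H) : Γ) =
        (1 + n) * (1 + P * n * P') := by
      show S.ρ (x * ((h : Γ) * (g₀ * x * g₀⁻¹) * (h : Γ)⁻¹)) = _
      have e1 : (h : Γ) * (g₀ * x * g₀⁻¹) * (h : Γ)⁻¹ = (h * g₀) * x * (h * g₀)⁻¹ := by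
        group
      have e3 : P * (1 + n) * P' = 1 + P * n * P' := by
        rw [mul_add, add_mul, mul_one, hPP']
      rw [e1, map_mul, map_mul, map_mul _ (↑h * g₀) x, hρx, ← hP, ← hP', e3]
    rwa [h4] at h3
  have hm : (P * n * P') * (P * n * P') = 0 := by
    calc (P * n * P') * (P * n * P') = P * n * (P' * P) * n * P' := by
          simp only [mul_assoc]
      _ = 0 := by rw [hP'P, mul_one, mul_assoc P n n, hnn, mul_zero, zero_mul]
  have ht := Frattini.trace_sub_one_eq_zero (p := p) hw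
  have e2 : (1 + n) * (1 + P * n * P') - 1 = n + P * n * P' + n * (P * n * P') := by
    noncomm_ring
  rw [e2, Matrix.trace_add, Matrix.trace_add, Frattini.trace_eq_zero_of_sq hnn,
    Frattini.trace_eq_zero_of_sq hm, zero_add, zero_add] at ht
  exact Frattini.proportional hnn hm hn0 ht

end Fermat.Agent.S56.Sel
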