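/-
S56 / block SEL, node N5: `ρ(H)` contains an element with distinct eigenvalues.
-/
import Fermat.Agent.S56.Sel.Defs

set_option autoImplicit false

namespace Fermat.Agent.S56.Sel

open Matrix

namespace HasReg

variable {k : Type} [Field k]

/-- Cayley-Hamilton for `2 × 2` matrices. -/
theorem cayley (A : M2 k) : A * A = A.trace • A - A.det • 1 := by
  ext i j
  fin_cases i <;> fin_cases j <;>
    simp [Matrix.mul_apply, Fin.sum_univ_two, Matrix.trace_fin_two, Matrix.det_fin_two] <;> ring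

theorem sq_sub_smul (A : M2 k) (c : k) :
    (A - c • (1 : M2 k)) * (A - c • (1 : M2 k)) = A * A - (2 * c) • A + (c ^ 2) • (1 : M2 k) := by
  rw [sub_mul, mul_sub, mul_sub]
  simp only [smul_mul_assoc, mul_smul_comm, one_mul, mul_one, smul_smul]
  module

end HasReg

variable {p : ℕ} {k : Type} [Field k] {Γ : Type} [Group Γ] (S : Setup p k Γ)

theorem hasReg (h1 : S.IrrH) (h2 : S.NilIrr) : S.HasReg := by
  by_contra hcon
  have hd : ∀ s ∈ S.H, (S.ρ s).trace ^ 2 = 4 := by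
    intro s hs
    by_contra h
    apply hcon
    refine ⟨s, hs, ?_⟩
    rw [disc, S.det_H s hs, mul_one]
    exact sub_ne_zero.mpr h
  have h2k : (2 : k) ≠ 0 := by
    have := S.char
    intro h
    have h' : ((2 : ℕ) : k) = 0 := by exact_mod_cast h
    rw [CharP.cast_eq_zero_iff k p 2] at h'
    exact S.hp2 ((Nat.prime_dvd_prime_iff_eq S.hp Nat.prime_two).mp h')
  have hv0 : (![1, 0] : Fin 2 → k) ≠ 0 := by
    intro h
    have := congrFun h 0
    simp at this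
  obtain ⟨h₀, hh₀, hv⟩ := h1 ![1, 0] hv0
  obtain ⟨c, hc⟩ : ∃ c : k, 2 * c = (S.ρ h₀).trace :=
    ⟨2⁻¹ * (S.ρ h₀).trace, by rw [mul_inv_cancel_left₀ h2k]⟩
  have hc2 : c ^ 2 = 1 := by
    have h4 : (2 : k) * 2 ≠ 0 := mul_ne_zero h2k h2k
    apply mul_left_cancel₀ h4
    have := hd h₀ hh₀
    rw [← hc] at this
    linear_combination this
  have hCH : S.ρ h₀ * S.ρ h₀ = (2 * c) • S.ρ h₀ - 1 := by
    rw [HasReg.cayley, S.det_H h₀ hh₀, one_smul, hc]
  have hn0 : S.ρ h₀ - c • (1 : M2 k) ≠ 0 := by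
    intro h
    have hA : S.ρ h₀ = c • (1 : M2 k) := sub_eq_zero.mp h
    apply hv c
    rw [hA, Matrix.smul_mulVec, Matrix.one_mulVec]
  have hnn : (S.ρ h₀ - c • (1 : M2 k)) * (S.ρ h₀ - c • (1 : M2 k)) = 0 := by
    rw [HasReg.sq_sub_smul, hCH, hc2, one_smul]
    abel
  obtain ⟨h, hh, hμ⟩ := h2 _ hn0 hnn
  set μ : k := ((S.ρ h₀ - c • (1 : M2 k)) * S.ρ h).trace with hμdef
  set b : k := (S.ρ h).trace with hbdef
  have e1 : (S.ρ (h₀ * h)).trace = μ + c * b := by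
    rw [hμdef, sub_mul, Matrix.trace_sub, smul_mul_assoc, one_mul, Matrix.trace_smul, smul_eq_mul,
      map_mul]
    ring
  have e2 : (S.ρ (h₀ * h₀ * h)).trace = 2 * c * μ + b := by
    rw [map_mul, map_mul, hCH, sub_mul, Matrix.trace_sub, smul_mul_assoc, Matrix.trace_smul,
      smul_eq_mul, one_mul, ← map_mul, e1]
    linear_combination (2 * b) * hc2
  have hb := hd h hh
  have c1 := hd (h₀ * h) (S.H.mul_mem hh₀ hh)
  have c2 := hd (h₀ * h₀ * h) (S.H.mul_mem (S.H.mul_mem hh₀ hh₀) hh)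
  rw [e1] at c1
  rw [e2] at c2
  have key : 2 * μ ^ 2 = 0 := by
    linear_combination c2 - 2 * c1 - (4 * μ ^ 2 - 2 * b ^ 2) * hc2 + hb
  rcases mul_eq_zero.mp key with h0 | h0
  · exact h2k h0
  · exact hμ (pow_eq_zero_iff (two_ne_zero) |>.mp h0)

end Fermat.Agent.S56.Sel
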