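/-
S56 / block SEL, node N10 (task 2599): inflation-restriction.
A cocycle `Y : Γ → ad⁰(1)` which is a coboundary on `H` is a coboundary, provided
`H⁰(H, ad⁰) = 0`.
-/
import Fermat.Agent.S56.Sel.Defs

set_option autoImplicit false

namespace Fermat.Agent.S56.Sel

open Matrix

variable {p : ℕ} {k : Type} [Field k] {Γ : Type} [Group Γ] (S : Setup p k Γ)

namespace Inflate

theorem rho_mul_inv (g : Γ) : S.ρ g * S.ρ g⁻¹ = 1 := by
  rw [← map_mul, mul_inv_cancel, map_one]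

theorem rho_inv_mul (g : Γ) : S.ρ g⁻¹ * S.ρ g = 1 := by
  rw [← map_mul, inv_mul_cancel, map_one]

/-- the coboundary of `X`. -/
def cob (X : M2 k) (g : Γ) : M2 k := (S.ρ g).det • (S.ρ g * X * S.ρ g⁻¹) - X

theorem cob_mul (X : M2 k) (g h : Γ) :
    cob S X (g * h) = cob S X g + (S.ρ g).det • (S.ρ g * cob S X h * S.ρ g⁻¹) := by
  unfold cob
  rw [_root_.mul_inv_rev, map_mul, map_mul, Matrix.det_mul, Matrix.mul_sub, Matrix.sub_mul,
    Matrix.mul_smul, Matrix.smul_mul, smul_sub, smul_smul]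
  have e : S.ρ g * S.ρ h * X * (S.ρ h⁻¹ * S.ρ g⁻¹) = S.ρ g * (S.ρ h * X * S.ρ h⁻¹) * S.ρ g⁻¹ := by
    simp only [Matrix.mul_assoc]
  rw [e]
  abel

theorem cob_trace (X : M2 k) (hX : X.trace = 0) (g : Γ) : (cob S X g).trace = 0 := by
  unfold cob
  rw [Matrix.trace_sub, Matrix.trace_smul, Matrix.trace_mul_comm, ← Matrix.mul_assoc,
    rho_inv_mul, Matrix.one_mul, hX]
  simp

end Inflate

open Inflate in
theorem cob_of_cobH (hi : S.InvH) {Y : Γ → M2 k} (hY : S.IsCocycle Y) (h : S.IsCobH Y) :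
    S.IsCob Y := by
  obtain ⟨X, hX, hH⟩ := h
  refine ⟨X, hX, fun g => ?_⟩
  -- the difference cocycle
  set Z : Γ → M2 k := fun g => Y g - cob S X g with hZ
  have hZmul : ∀ a b, Z (a * b) = Z a + (S.ρ a).det • (S.ρ a * Z b * S.ρ a⁻¹) := by
    intro a b
    simp only [hZ]
    rw [hY.coc, cob_mul, Matrix.mul_sub, Matrix.sub_mul, smul_sub]
    abel
  have hZtr : ∀ a, (Z a).trace = 0 := by
    intro a
    simp only [hZ]
    rw [Matrix.trace_sub, hY.tr, cob_trace S X hX, sub_zero]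
  have hZH : ∀ s ∈ S.H, Z s = 0 := by
    intro s hs
    simp only [hZ]
    rw [hH s hs]
    unfold cob
    rw [S.det_H s hs, one_smul, sub_self]
  have hcomm : ∀ s ∈ S.H, S.ρ s * Z g = Z g * S.ρ s := by
    intro s hs
    have h1 : Z (s * g) = S.ρ s * Z g * S.ρ s⁻¹ := by
      rw [hZmul, hZH s hs, S.det_H s hs, one_smul, zero_add]
    have hs' : g⁻¹ * s * g ∈ S.H := by
      have := S.normal.conj_mem s hs g⁻¹
      simpa using this
    have h2 : Z (s * g) = Z g := by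
      have e : s * g = g * (g⁻¹ * s * g) := by group
      rw [e, hZmul, hZH _ hs']
      simp
    have h3 : S.ρ s * Z g * S.ρ s⁻¹ = Z g := by rw [← h1, h2]
    calc S.ρ s * Z g = S.ρ s * Z g * (S.ρ s⁻¹ * S.ρ s) := by
          rw [rho_inv_mul, Matrix.mul_one]
      _ = (S.ρ s * Z g * S.ρ s⁻¹) * S.ρ s := by rw [Matrix.mul_assoc (S.ρ s * Z g)]
      _ = Z g * S.ρ s := by rw [h3]
  have h0 : Z g = 0 := hi (Z g) (hZtr g) hcomm
  have : Y g - cob S X g = 0 := h0
  exact sub_eq_zero.mp this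

end Fermat.Agent.S56.Sel
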