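/-
S56 / block SEL (sub-architect helper182), node N3: `H⁰(H, ad⁰) = 0` from Burnside.
-/
import Fermat.Agent.S56.Sel.Defs

set_option autoImplicit false

namespace Fermat.Agent.S56.Sel

open Matrix

variable {p : ℕ} {k : Type} [Field k] {Γ : Type} [Group Γ] (S : Setup p k Γ)

namespace InvH

include S in
theorem two_ne_zero' : (2 : k) ≠ 0 := by
  haveI := S.char
  intro h
  have h2 : ((2 : ℕ) : k) = 0 := by exact_mod_cast h
  rw [CharP.cast_eq_zero_iff k p 2] at h2
  exact S.hp2 ((Nat.prime_dvd_prime_iff_eq S.hp Nat.prime_two).1 h2)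

end InvH

theorem invH (h : S.SpanH) : S.InvH := by
  intro X htr hX
  have hcomm : ∀ A : M2 k, A * X = X * A := by
    intro A
    induction h A using Submodule.span_induction with
    | mem A hA =>
      obtain ⟨g, hg, rfl⟩ := hA
      exact hX g hg
    | zero => rw [zero_mul, mul_zero]
    | add A B _ _ hA hB => rw [add_mul, mul_add, hA, hB]
    | smul c A _ hA => rw [smul_mul_assoc, mul_smul_comm, hA]
  have h1 := hcomm !![0, 1; 0, 0]
  have h2 := hcomm !![0, 0; 1, 0]
  rw [Matrix.eta_fin_two X] at h1 h2
  simp only [Matrix.mul_fin_two, zero_mul, one_mul, mul_zero, mul_one, zero_add, add_zero] at h1 h2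
  have e10 : X 1 0 = 0 := by
    have := congrFun (congrFun h1 0) 0
    simpa using this
  have e11 : X 1 1 = X 0 0 := by
    have := congrFun (congrFun h1 0) 1
    simpa using this
  have e01 : X 0 1 = 0 := by
    have := congrFun (congrFun h2 0) 0
    simpa using this.symm
  rw [Matrix.trace_fin_two, e11] at htr
  have e00 : X 0 0 = 0 := by
    have h3 : (2 : k) * X 0 0 = 0 := by rw [two_mul]; exact htr
    exact (mul_eq_zero.1 h3).resolve_left (InvH.two_ne_zero' S)
  rw [Matrix.eta_fin_two X, e10, e11, e01, e00]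
  ext i j
  fin_cases i <;> fin_cases j <;> rfl

end Fermat.Agent.S56.Sel
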