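/-
S56 / block SEL, node N1 (helper11): the normal subgroup `H` with cyclic quotient has no stable line.
-/
import Fermat.Agent.S56.Sel.Defs

set_option autoImplicit false

namespace Fermat.Agent.S56.Sel

open Matrix

variable {p : ℕ} {k : Type} [Field k] {Γ : Type} [Group Γ] (S : Setup p k Γ)

namespace IrrH

/-- `w` is a common eigenvector of `ρ(H)`. -/
def Eig (w : Fin 2 → k) : Prop := ∀ h ∈ S.H, ∃ c : k, (S.ρ h) *ᵥ w = c • w

variable {S}

theorem Eig.conj {w : Fin 2 → k} (hw : Eig S w) (g : Γ) : Eig S ((S.ρ g) *ᵥ w) := by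
  intro h hh
  have hmem : g⁻¹ * h * g ∈ S.H := by
    have := S.normal.conj_mem h hh g⁻¹
    simpa using this
  obtain ⟨c, hc⟩ := hw _ hmem
  refine ⟨c, ?_⟩
  rw [Matrix.mulVec_mulVec, ← map_mul, show h * g = g * (g⁻¹ * h * g) by group, map_mul,
    ← Matrix.mulVec_mulVec, hc, Matrix.mulVec_smul]

theorem det_ne_zero {v v' : Fin 2 → k} (hv : v ≠ 0) (h : ∀ c : k, v' ≠ c • v) :
    v 0 * v' 1 - v 1 * v' 0 ≠ 0 := by
  intro hD
  by_cases h0 : v 0 = 0
  · have h1 : v 1 ≠ 0 := by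
      intro h1
      apply hv
      ext i
      fin_cases i
      · exact h0
      · exact h1
    apply h (v' 1 / v 1)
    ext i
    fin_cases i
    · have : v' 0 = 0 := by
        rw [h0, zero_mul, zero_sub, neg_eq_zero] at hD
        exact (mul_eq_zero.1 hD).resolve_left h1
      simp [this, h0]
    · simp [h1]
  · apply h (v' 0 / v 0)
    ext i
    fin_cases i
    · simp [h0]
    · simp only [Fin.mk_one, Pi.smul_apply, smul_eq_mul]
      field_simp
      linear_combination hD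

theorem exists_coord {v v' : Fin 2 → k} (hD : v 0 * v' 1 - v 1 * v' 0 ≠ 0) (w : Fin 2 → k) :
    ∃ a b : k, w = a • v + b • v' := by
  refine ⟨(w 0 * v' 1 - w 1 * v' 0) / (v 0 * v' 1 - v 1 * v' 0),
    (v 0 * w 1 - v 1 * w 0) / (v 0 * v' 1 - v 1 * v' 0), ?_⟩
  ext i
  fin_cases i
  · simp only [Fin.zero_eta, Pi.add_apply, Pi.smul_apply, smul_eq_mul]
    rw [div_mul_eq_mul_div, div_mul_eq_mul_div, ← add_div, eq_div_iff hD]
    ring
  · simp only [Fin.mk_one, Pi.add_apply, Pi.smul_apply, smul_eq_mul]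
    rw [div_mul_eq_mul_div, div_mul_eq_mul_div, ← add_div, eq_div_iff hD]
    ring

theorem coord_eq_zero {v v' : Fin 2 → k} (hD : v 0 * v' 1 - v 1 * v' 0 ≠ 0) {a b : k}
    (h : a • v + b • v' = 0) : a = 0 ∧ b = 0 := by
  have h0 : a * v 0 + b * v' 0 = 0 := by simpa using congrFun h 0
  have h1 : a * v 1 + b * v' 1 = 0 := by simpa using congrFun h 1
  constructor
  · have : a * (v 0 * v' 1 - v 1 * v' 0) = 0 := by linear_combination v' 1 * h0 - v' 0 * h1
    exact (mul_eq_zero.1 this).resolve_right hD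
  · have : b * (v 0 * v' 1 - v 1 * v' 0) = 0 := by linear_combination v 0 * h1 - v 1 * h0
    exact (mul_eq_zero.1 this).resolve_right hD

theorem inv_mulVec (g : Γ) (w : Fin 2 → k) : (S.ρ g⁻¹) *ᵥ ((S.ρ g) *ᵥ w) = w := by
  rw [Matrix.mulVec_mulVec, ← map_mul, inv_mul_cancel, map_one, Matrix.one_mulVec]

/-- the stabiliser of the line `k v`. -/
def stab (S : Setup p k Γ) (v : Fin 2 → k) (hv : v ≠ 0) : Subgroup Γ where
  carrier := {g | ∃ c : k, (S.ρ g) *ᵥ v = c • v}
  one_mem' := ⟨1, by rw [map_one, Matrix.one_mulVec, one_smul]⟩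
  mul_mem' := by
    rintro a b ⟨c, hc⟩ ⟨c', hc'⟩
    exact ⟨c' * c, by rw [map_mul, ← Matrix.mulVec_mulVec, hc', Matrix.mulVec_smul, hc, smul_smul]⟩
  inv_mem' := by
    rintro a ⟨c, hc⟩
    have hc0 : c ≠ 0 := by
      rintro rfl
      rw [zero_smul] at hc
      have := inv_mulVec (S := S) a v
      rw [hc, Matrix.mulVec_zero] at this
      exact hv this.symm
    refine ⟨c⁻¹, ?_⟩
    have := inv_mulVec (S := S) a v
    rw [hc, Matrix.mulVec_smul] at this
    calc (S.ρ a⁻¹) *ᵥ v = c⁻¹ • (c • (S.ρ a⁻¹) *ᵥ v) := by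
          rw [smul_smul, inv_mul_cancel₀ hc0, one_smul]
      _ = c⁻¹ • v := by rw [this]

theorem mem_stab {v : Fin 2 → k} {hv : v ≠ 0} {g : Γ} :
    g ∈ stab S v hv ↔ ∃ c : k, (S.ρ g) *ᵥ v = c • v := Iff.rfl

/-- an eigenvector of `ρ γ`. -/
theorem exists_eigenvector (γ : Γ) : ∃ (w : Fin 2 → k) (α : k), w ≠ 0 ∧ (S.ρ γ) *ᵥ w = α • w := by
  obtain ⟨α, β, htr, hdet⟩ := S.split γ
  have hd : (S.ρ γ - α • (1 : M2 k)).det = 0 := by
    rw [Matrix.trace_fin_two] at htr
    rw [Matrix.det_fin_two] at hdet ⊢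
    simp only [Matrix.sub_apply, Matrix.smul_apply, Matrix.one_apply_eq, smul_eq_mul, mul_one,
      Matrix.one_apply_ne (show (0 : Fin 2) ≠ 1 by decide),
      Matrix.one_apply_ne (show (1 : Fin 2) ≠ 0 by decide), mul_zero, sub_zero]
    linear_combination hdet - α * htr
  obtain ⟨w, hw, hw0⟩ := Matrix.exists_mulVec_eq_zero_iff.2 hd
  refine ⟨w, α, hw, ?_⟩
  rw [Matrix.sub_mulVec, Matrix.smul_mulVec, Matrix.one_mulVec, sub_eq_zero] at hw0
  exact hw0

end IrrH

open IrrH in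
theorem irrH : S.IrrH := by
  intro v hv
  by_contra hcon
  push Not at hcon
  have hE : Eig S v := hcon
  obtain ⟨g₀, hg₀⟩ := S.irr v hv
  have hE' : Eig S ((S.ρ g₀) *ᵥ v) := hE.conj g₀
  have hD := det_ne_zero hv hg₀
  by_cases hcase : ∀ h ∈ S.H, ∃ c : k, (S.ρ h) *ᵥ v = c • v ∧
      (S.ρ h) *ᵥ ((S.ρ g₀) *ᵥ v) = c • ((S.ρ g₀) *ᵥ v)
  · -- `H` acts by scalars
    have hsc : ∀ h ∈ S.H, ∃ c : k, ∀ w : Fin 2 → k, (S.ρ h) *ᵥ w = c • w := by
      intro h hh
      obtain ⟨c, h1, h2⟩ := hcase h hh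
      refine ⟨c, fun w => ?_⟩
      obtain ⟨a, b, rfl⟩ := exists_coord hD w
      rw [Matrix.mulVec_add, Matrix.mulVec_smul, Matrix.mulVec_smul, h1, h2, smul_add,
        smul_comm a c, smul_comm b c]
    obtain ⟨γ, hγ⟩ := S.cyc
    obtain ⟨w, α, hw, hα⟩ := exists_eigenvector (S := S) γ
    obtain ⟨g, hg⟩ := S.irr w hw
    obtain ⟨i, h, hh, rfl⟩ := hγ g
    obtain ⟨c, hc⟩ := hsc h hh
    have hpow : ∀ i : ℕ, (S.ρ (γ ^ i)) *ᵥ w = α ^ i • w := by
      intro i
      induction i with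
      | zero => rw [pow_zero, map_one, Matrix.one_mulVec, pow_zero, one_smul]
      | succ i ih =>
        rw [pow_succ, map_mul, ← Matrix.mulVec_mulVec, hα, Matrix.mulVec_smul, ih, smul_smul,
          pow_succ, mul_comm]
    apply hg (c * α ^ i)
    rw [map_mul, ← Matrix.mulVec_mulVec, hc, Matrix.mulVec_smul, hpow, smul_smul]
  · push Not at hcase
    obtain ⟨h₁, hh₁, hne⟩ := hcase
    obtain ⟨c, hc⟩ := hE h₁ hh₁
    obtain ⟨c', hc'⟩ := hE' h₁ hh₁
    have hcc : c ≠ c' := by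
      rintro rfl
      exact hne c hc hc'
    have hdich : ∀ g : Γ, g ∈ stab S v hv ∨ g₀⁻¹ * g ∈ stab S v hv := by
      intro g
      obtain ⟨d, hd⟩ := hE.conj g h₁ hh₁
      obtain ⟨a, b, hab⟩ := exists_coord hD ((S.ρ g) *ᵥ v)
      have h0 : (a * (c - d)) • v + (b * (c' - d)) • ((S.ρ g₀) *ᵥ v) = 0 := by
        rw [hab, Matrix.mulVec_add, Matrix.mulVec_smul, Matrix.mulVec_smul, hc, hc'] at hd
        have : (a * (c - d)) • v + (b * (c' - d)) • ((S.ρ g₀) *ᵥ v) =
            (a • c • v + b • c' • (S.ρ g₀) *ᵥ v) - d • (a • v + b • (S.ρ g₀) *ᵥ v) := by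
          module
        rw [this, hd, sub_self]
      obtain ⟨e1, e2⟩ := coord_eq_zero hD h0
      by_cases hb : b = 0
      · left
        exact ⟨a, by rw [hab, hb, zero_smul, add_zero]⟩
      · right
        have hd' : c' = d := sub_eq_zero.1 ((mul_eq_zero.1 e2).resolve_left hb)
        have ha : a = 0 := by
          rcases mul_eq_zero.1 e1 with h | h
          · exact h
          · exact absurd ((sub_eq_zero.1 h).trans hd'.symm) hcc
        refine ⟨b, ?_⟩
        rw [map_mul, ← Matrix.mulVec_mulVec, hab, ha, zero_smul, zero_add, Matrix.mulVec_smul,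
          inv_mulVec]
    have hg₀' : g₀ ∉ stab S v hv := by
      rintro ⟨c, hc⟩
      exact hg₀ c hc
    have hidx : (stab S v hv).index = 2 := by
      rw [Subgroup.index_eq_two_iff]
      refine ⟨g₀, fun b => ?_⟩
      by_cases hb : b ∈ stab S v hv
      · right
        refine ⟨hb, fun hbg => hg₀' ?_⟩
        have := mul_mem (inv_mem hb) hbg
        rwa [inv_mul_cancel_left] at this
      · left
        refine ⟨?_, hb⟩
        rcases hdich b⁻¹ with h | h
        · exact absurd (by simpa using inv_mem h) hb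
        · have := inv_mem h
          simpa using this
    obtain ⟨g, hg, hgc⟩ := S.irr2 _ hidx v hv
    obtain ⟨c, hc⟩ := hg
    exact hgc c hc

end Fermat.Agent.S56.Sel
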