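/-
S56 / block SEL, node N4 (sub-architect helper182, proof helper40):
a nonzero nilpotent matrix is not orthogonal to `ρ(H)` if `H` has no stable line.
-/
import Fermat.Agent.S56.Sel.Defs

set_option autoImplicit false

namespace Fermat.Agent.S56.Sel

open Matrix

namespace NilIrr

/-- two vectors of the plane with vanishing determinant are proportional. -/
theorem exists_smul_of_det_eq_zero {k : Type} [Field k] (v w : Fin 2 → k) (hv : v ≠ 0)
    (h : v 0 * w 1 - v 1 * w 0 = 0) : ∃ c : k, w = c • v := by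
  by_cases h0 : v 0 = 0
  · have h1 : v 1 ≠ 0 := by
      intro h1
      apply hv
      ext i
      fin_cases i
      · exact h0
      · exact h1
    have hw0 : w 0 = 0 := by
      rw [h0, zero_mul, zero_sub, neg_eq_zero] at h
      exact (mul_eq_zero.1 h).resolve_left h1
    refine ⟨w 1 / v 1, ?_⟩
    ext i
    fin_cases i
    · show w 0 = w 1 / v 1 * v 0
      rw [h0, hw0, mul_zero]
    · show w 1 = w 1 / v 1 * v 1
      rw [div_mul_cancel₀ _ h1]
  · refine ⟨w 0 / v 0, ?_⟩
    ext i
    fin_cases i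
    · show w 0 = w 0 / v 0 * v 0
      rw [div_mul_cancel₀ _ h0]
    · show w 1 = w 0 / v 0 * v 1
      field_simp
      linear_combination h

end NilIrr

variable {p : ℕ} {k : Type} [Field k] {Γ : Type} [Group Γ] (S : Setup p k Γ)

theorem nilIrr (h : S.IrrH) : S.NilIrr := by
  intro n hn hnn
  by_contra hcon
  push Not at hcon
  have e00 : n 0 0 * n 0 0 + n 0 1 * n 1 0 = 0 := by
    have := congrFun (congrFun hnn 0) 0
    simpa [Matrix.mul_apply, Fin.sum_univ_two] using this
  have e01 : n 0 0 * n 0 1 + n 0 1 * n 1 1 = 0 := by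
    have := congrFun (congrFun hnn 0) 1
    simpa [Matrix.mul_apply, Fin.sum_univ_two] using this
  have e10 : n 1 0 * n 0 0 + n 1 1 * n 1 0 = 0 := by
    have := congrFun (congrFun hnn 1) 0
    simpa [Matrix.mul_apply, Fin.sum_univ_two] using this
  have e11 : n 1 0 * n 0 1 + n 1 1 * n 1 1 = 0 := by
    have := congrFun (congrFun hnn 1) 1
    simpa [Matrix.mul_apply, Fin.sum_univ_two] using this
  have htr : n 0 0 + n 1 1 = 0 := by
    by_contra ht
    have hb : n 0 1 = 0 := by
      have h1 : n 0 1 * (n 0 0 + n 1 1) = 0 := by linear_combination e01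
      exact (mul_eq_zero.1 h1).resolve_right ht
    have ha : n 0 0 = 0 := by
      rw [hb, zero_mul, add_zero] at e00
      exact mul_self_eq_zero.1 e00
    have hd : n 1 1 = 0 := by
      rw [hb, mul_zero, zero_add] at e11
      exact mul_self_eq_zero.1 e11
    exact ht (by rw [ha, hd, add_zero])
  have hd : n 1 1 = - n 0 0 := by linear_combination htr
  have tr : ∀ A : M2 k, (n * A).trace =
      n 0 0 * A 0 0 + n 0 1 * A 1 0 + n 1 0 * A 0 1 + n 1 1 * A 1 1 := by
    intro A
    simp only [Matrix.trace_fin_two, Matrix.mul_apply, Fin.sum_univ_two]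
    ring
  have mv0 : ∀ (A : M2 k) (v : Fin 2 → k), (A *ᵥ v) 0 = A 0 0 * v 0 + A 0 1 * v 1 := by
    intro A v
    simp [Matrix.mulVec, dotProduct, Fin.sum_univ_two]
  have mv1 : ∀ (A : M2 k) (v : Fin 2 → k), (A *ᵥ v) 1 = A 1 0 * v 0 + A 1 1 * v 1 := by
    intro A v
    simp [Matrix.mulVec, dotProduct, Fin.sum_univ_two]
  obtain ⟨j, hj⟩ : ∃ j : Fin 2, (fun i => n i j) ≠ 0 := by
    by_contra hall
    push Not at hall
    apply hn
    ext i j
    exact congrFun (hall j) i
  obtain ⟨g, hg, hgv⟩ := h _ hj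
  have ht := hcon g hg
  rw [tr] at ht
  obtain ⟨c, hc⟩ := NilIrr.exists_smul_of_det_eq_zero (fun i => n i j) (S.ρ g *ᵥ fun i => n i j) hj
    (by
      rw [mv0, mv1]
      fin_cases j
      · show n 0 0 * (S.ρ g 1 0 * n 0 0 + S.ρ g 1 1 * n 1 0) -
          n 1 0 * (S.ρ g 0 0 * n 0 0 + S.ρ g 0 1 * n 1 0) = 0
        rw [hd] at ht
        linear_combination (S.ρ g 1 0) * e00 - n 1 0 * ht
      · show n 0 1 * (S.ρ g 1 0 * n 0 1 + S.ρ g 1 1 * n 1 1) -
          n 1 1 * (S.ρ g 0 0 * n 0 1 + S.ρ g 0 1 * n 1 1) = 0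
        rw [hd] at ht ⊢
        linear_combination (-(S.ρ g 0 1)) * e00 + n 0 1 * ht)
  exact hgv c hc

end Fermat.Agent.S56.Sel
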