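/-
S56 / block SEL, node N2 (owner helper147): Burnside for `2 × 2` matrices with an eigenvalue in `k`:
if `H` has no stable line then `ρ(H)` spans `M₂(k)`.
-/
import Fermat.Agent.S56.Sel.Defs

set_option autoImplicit false

namespace Fermat.Agent.S56.Sel

open Matrix

namespace SpanH

variable {k : Type} [Field k]

/-- a nonzero matrix of determinant zero has rank one -/
theorem exists_vecMulVec (N : M2 k) (h0 : N ≠ 0) (hd : N.det = 0) :
    ∃ x y : Fin 2 → k, x ≠ 0 ∧ y ≠ 0 ∧ N = vecMulVec x y := by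
  rw [Matrix.det_fin_two] at hd
  have key : ∃ x y : Fin 2 → k, N = vecMulVec x y := by
    by_cases ha : N 0 0 = 0
    · by_cases hb : N 0 1 = 0
      · by_cases hc : N 1 0 = 0
        · by_cases hdd : N 1 1 = 0
          · exfalso
            apply h0
            ext i j
            fin_cases i <;> fin_cases j <;> simp [ha, hb, hc, hdd]
          · refine ⟨![N 0 1, N 1 1], ![N 1 0 / N 1 1, 1], ?_⟩
            ext i j
            fin_cases i <;> fin_cases j <;> simp [vecMulVec_apply, ha, hb, hc]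
        · refine ⟨![N 0 0, N 1 0], ![1, N 1 1 / N 1 0], ?_⟩
          ext i j
          fin_cases i <;> fin_cases j <;> simp [vecMulVec_apply, ha, hb]
          field_simp
      · refine ⟨![N 0 1, N 1 1], ![N 0 0 / N 0 1, 1], ?_⟩
        ext i j
        fin_cases i <;> fin_cases j <;> simp [vecMulVec_apply]
        · field_simp
        · field_simp
          linear_combination -hd
    · refine ⟨![N 0 0, N 1 0], ![1, N 0 1 / N 0 0], ?_⟩
      ext i j
      fin_cases i <;> fin_cases j <;> simp [vecMulVec_apply]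
      · field_simp
      · field_simp
        linear_combination hd
  obtain ⟨x, y, rfl⟩ := key
  refine ⟨x, y, ?_, ?_, rfl⟩
  · rintro rfl
    exact h0 (zero_vecMulVec y)
  · rintro rfl
    exact h0 (vecMulVec_zero x)

/-- two non proportional vectors have nonzero determinant -/
theorem det_ne_zero {x u : Fin 2 → k} (hx : x ≠ 0) (hu : ∀ c : k, u ≠ c • x) :
    x 0 * u 1 - x 1 * u 0 ≠ 0 := by
  intro h
  by_cases h0 : x 0 = 0
  · have h1 : x 1 ≠ 0 := by
      intro h1
      apply hx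
      ext i
      fin_cases i
      · exact h0
      · exact h1
    apply hu (u 1 / x 1)
    ext i
    fin_cases i
    · have h2 : x 1 * u 0 = 0 := by
        rw [h0] at h
        linear_combination -h
      have h3 : u 0 = 0 := (mul_eq_zero.1 h2).resolve_left h1
      simp [h0, h3]
    · simp
      field_simp
  · apply hu (u 0 / x 0)
    ext i
    fin_cases i
    · simp
      field_simp
    · simp
      field_simp
      linear_combination h

/-- the four rank one matrices attached to two bases span -/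
theorem span_four (x u y z : Fin 2 → k) (B : M2 k) :
    ((x 0 * u 1 - x 1 * u 0) * (y 0 * z 1 - y 1 * z 0)) • B =
      ((u 1 * B 0 0 - u 0 * B 1 0) * z 1 - (u 1 * B 0 1 - u 0 * B 1 1) * z 0) • vecMulVec x y +
      (-(u 1 * B 0 0 - u 0 * B 1 0) * y 1 + (u 1 * B 0 1 - u 0 * B 1 1) * y 0) • vecMulVec x z +
      ((-x 1 * B 0 0 + x 0 * B 1 0) * z 1 - (-x 1 * B 0 1 + x 0 * B 1 1) * z 0) • vecMulVec u y +
      (-(-x 1 * B 0 0 + x 0 * B 1 0) * y 1 + (-x 1 * B 0 1 + x 0 * B 1 1) * y 0) • vecMulVec u z := by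
  ext i j
  fin_cases i <;> fin_cases j <;> simp [vecMulVec_apply] <;> ring

end SpanH

variable {p : ℕ} {k : Type} [Field k] {Γ : Type} [Group Γ] (S : Setup p k Γ)

theorem spanH (h : S.IrrH) : S.SpanH := by
  intro B
  have hgen : ∀ g ∈ S.H, S.ρ g ∈ Submodule.span k (S.ρ '' (S.H : Set Γ)) :=
    fun g hg => Submodule.subset_span ⟨g, hg, rfl⟩
  have hleft : ∀ g ∈ S.H, ∀ A ∈ Submodule.span k (S.ρ '' (S.H : Set Γ)),
      S.ρ g * A ∈ Submodule.span k (S.ρ '' (S.H : Set Γ)) := by
    intro g hg A hA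
    induction hA using Submodule.span_induction with
    | mem A hA =>
      obtain ⟨g', hg', rfl⟩ := hA
      rw [← map_mul]
      exact hgen _ (S.H.mul_mem hg hg')
    | zero => rw [mul_zero]; exact Submodule.zero_mem _
    | add A A' _ _ h1 h2 => rw [mul_add]; exact Submodule.add_mem _ h1 h2
    | smul c A _ h1 => rw [Matrix.mul_smul]; exact Submodule.smul_mem _ c h1
  have hright : ∀ g ∈ S.H, ∀ A ∈ Submodule.span k (S.ρ '' (S.H : Set Γ)),
      A * S.ρ g ∈ Submodule.span k (S.ρ '' (S.H : Set Γ)) := by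
    intro g hg A hA
    induction hA using Submodule.span_induction with
    | mem A hA =>
      obtain ⟨g', hg', rfl⟩ := hA
      rw [← map_mul]
      exact hgen _ (S.H.mul_mem hg' hg)
    | zero => rw [zero_mul]; exact Submodule.zero_mem _
    | add A A' _ _ h1 h2 => rw [add_mul]; exact Submodule.add_mem _ h1 h2
    | smul c A _ h1 => rw [Matrix.smul_mul]; exact Submodule.smul_mem _ c h1
  have hone : (1 : M2 k) ∈ Submodule.span k (S.ρ '' (S.H : Set Γ)) := by
    have := hgen 1 S.H.one_mem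
    rwa [map_one] at this
  -- a nonzero element of determinant zero
  obtain ⟨h0, hh0, hns⟩ := h ![1, 0] (by
    intro h1
    have := congrFun h1 0
    simp at this)
  obtain ⟨α, β, htr, hdet⟩ := S.split h0
  have hNmem : S.ρ h0 - α • (1 : M2 k) ∈ Submodule.span k (S.ρ '' (S.H : Set Γ)) :=
    Submodule.sub_mem _ (hgen h0 hh0) (Submodule.smul_mem _ α hone)
  have hN0 : S.ρ h0 - α • (1 : M2 k) ≠ 0 := by
    intro h1
    apply hns α
    rw [sub_eq_zero.1 h1, Matrix.smul_mulVec, Matrix.one_mulVec]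
  have hNd : (S.ρ h0 - α • (1 : M2 k)).det = 0 := by
    rw [Matrix.trace_fin_two] at htr
    rw [Matrix.det_fin_two] at hdet ⊢
    simp only [Matrix.sub_apply, Matrix.smul_apply, Matrix.one_apply_eq, smul_eq_mul, mul_one,
      ne_eq, zero_ne_one, one_ne_zero, not_false_eq_true, Matrix.one_apply_ne, mul_zero, sub_zero]
    linear_combination hdet - α * htr
  obtain ⟨x, y, hx, hy, hN⟩ := SpanH.exists_vecMulVec _ hN0 hNd
  rw [hN] at hNmem
  obtain ⟨h1, hh1, hns1⟩ := h x hx
  have hdx := SpanH.det_ne_zero hx hns1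
  have hv' : (![y 1, - y 0] : Fin 2 → k) ≠ 0 := by
    intro h2
    apply hy
    ext i
    fin_cases i
    · have := congrFun h2 1
      simpa using this
    · have := congrFun h2 0
      simpa using this
  obtain ⟨h2, hh2, hns2⟩ := h _ hv'
  have hdv := SpanH.det_ne_zero hv' hns2
  have hdy : y 0 * (y ᵥ* S.ρ h2) 1 - y 1 * (y ᵥ* S.ρ h2) 0 ≠ 0 := by
    intro h3
    apply hdv
    simp only [Matrix.vecMul, Matrix.mulVec, dotProduct, Fin.sum_univ_two, Matrix.cons_val_zero,
      Matrix.cons_val_one] at h3 ⊢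
    linear_combination -h3
  have m1 : vecMulVec (S.ρ h1 *ᵥ x) y ∈ Submodule.span k (S.ρ '' (S.H : Set Γ)) := by
    rw [← Matrix.mul_vecMulVec]
    exact hleft h1 hh1 _ hNmem
  have m2 : vecMulVec x (y ᵥ* S.ρ h2) ∈ Submodule.span k (S.ρ '' (S.H : Set Γ)) := by
    rw [← Matrix.vecMulVec_mul]
    exact hright h2 hh2 _ hNmem
  have m3 : vecMulVec (S.ρ h1 *ᵥ x) (y ᵥ* S.ρ h2) ∈ Submodule.span k (S.ρ '' (S.H : Set Γ)) := by
    rw [← Matrix.vecMulVec_mul]
    exact hright h2 hh2 _ m1
  have hne := mul_ne_zero hdx hdy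
  have key := SpanH.span_four x (S.ρ h1 *ᵥ x) y (y ᵥ* S.ρ h2) B
  have hmem : ((x 0 * (S.ρ h1 *ᵥ x) 1 - x 1 * (S.ρ h1 *ᵥ x) 0) *
      (y 0 * (y ᵥ* S.ρ h2) 1 - y 1 * (y ᵥ* S.ρ h2) 0)) • B
      ∈ Submodule.span k (S.ρ '' (S.H : Set Γ)) := by
    rw [key]
    exact Submodule.add_mem _ (Submodule.add_mem _ (Submodule.add_mem _
      (Submodule.smul_mem _ _ hNmem) (Submodule.smul_mem _ _ m2)) (Submodule.smul_mem _ _ m1))
      (Submodule.smul_mem _ _ m3)
  have := Submodule.smul_mem _ ((x 0 * (S.ρ h1 *ᵥ x) 1 - x 1 * (S.ρ h1 *ᵥ x) 0) *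
      (y 0 * (y ᵥ* S.ρ h2) 1 - y 1 * (y ᵥ* S.ρ h2) 0))⁻¹ hmem
  rwa [smul_smul, inv_mul_cancel₀ hne, one_smul] at this

end Fermat.Agent.S56.Sel
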