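/-
S56 / block SEL, node N13 (helper14): first consequences of the formal properties of `τ`.
-/
import Fermat.Agent.S56.Sel.Defs

set_option autoImplicit false

namespace Fermat.Agent.S56.Sel

open Matrix

variable {p : ℕ} {k : Type} [Field k] {Γ : Type} [Group Γ] (S : Setup p k Γ)

namespace TauBasic

include S in
theorem two_ne_zero' : (2 : k) ≠ 0 := by
  haveI := S.char
  intro h
  have h2 : ((2 : ℕ) : k) = 0 := by exact_mod_cast h
  rw [CharP.cast_eq_zero_iff k p 2] at h2
  exact S.hp2 ((Nat.prime_dvd_prime_iff_eq S.hp Nat.prime_two).mp h2)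

theorem trace_one' : (1 : M2 k).trace = 2 := by
  rw [Matrix.trace_fin_two]
  simp
  norm_num

/-- Cayley-Hamilton for `2 × 2` matrices. -/
theorem sq_eq (A : M2 k) : A * A = A.trace • A - A.det • (1 : M2 k) := by
  ext i j
  fin_cases i <;> fin_cases j <;>
    simp [Matrix.mul_apply, Fin.sum_univ_two, Matrix.trace_fin_two, Matrix.det_fin_two] <;> ring

theorem trace_pow_eq_two (A : M2 k) (htr : A.trace = 2) (hdet : A.det = 1) :
    ∀ m : ℕ, (A ^ m).trace = 2 ∧ (A ^ (m + 1)).trace = 2 := by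
  intro m
  induction m with
  | zero => exact ⟨by rw [pow_zero, trace_one'], by rw [zero_add, pow_one, htr]⟩
  | succ m ih =>
    refine ⟨ih.2, ?_⟩
    have e : A ^ (m + 1 + 1) = (2 : k) • A ^ (m + 1) - A ^ m := by
      rw [pow_succ, pow_succ, mul_assoc, sq_eq, htr, hdet, one_smul, mul_sub, mul_one,
        mul_smul_comm, ← pow_succ]
    rw [e, Matrix.trace_sub, Matrix.trace_smul, ih.1, ih.2, smul_eq_mul]
    norm_num

end TauBasic

open TauBasic

theorem TauLike.one {t : Γ → k} (ht : S.TauLike t) : t 1 = 0 := by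
  have h := ht.t1 1 S.H.one_mem 1 S.H.one_mem
  rw [mul_one, inv_one, mul_one, map_one, trace_one'] at h
  have h2 : (2 : k) * t 1 = 0 := by linear_combination -h
  exact (mul_eq_zero.mp h2).resolve_left (two_ne_zero' S)

theorem TauLike.pow {t : Γ → k} (ht : S.TauLike t) (x : Γ) (hx : x ∈ S.H)
    (htr : (S.ρ x).trace = 2) (m : ℕ) : t (x ^ m) = (m : k) ^ 2 * t x := by
  have hdet := S.det_H x hx
  have key : ∀ m : ℕ, t (x ^ m) = (m : k) ^ 2 * t x ∧
      t (x ^ (m + 1)) = ((m + 1 : ℕ) : k) ^ 2 * t x := by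
    intro m
    induction m with
    | zero =>
      refine ⟨by rw [pow_zero, TauLike.one S ht]; simp, by simp⟩
    | succ m ih =>
      refine ⟨ih.2, ?_⟩
      have h := ht.t1 (x ^ (m + 1)) (S.H.pow_mem hx _) x hx
      have e1 : x ^ (m + 1) * x = x ^ (m + 1 + 1) := (pow_succ x (m + 1)).symm
      have e2 : x ^ (m + 1) * x⁻¹ = x ^ m := by rw [pow_succ, mul_assoc, mul_inv_cancel, mul_one]
      rw [e1, e2, map_pow, (trace_pow_eq_two _ htr hdet m).2, htr, ih.1, ih.2] at h
      push_cast at h ⊢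
      linear_combination h
  exact (key m).1

theorem TauLike.sq {t : Γ → k} (ht : S.TauLike t) (x : Γ) (hx : x ∈ S.H)
    (htr : (S.ρ x).trace = -2) : t (x * x) = -4 * t x := by
  have h := ht.t1 x hx x hx
  rw [mul_inv_cancel, TauLike.one S ht, htr] at h
  linear_combination h

end Fermat.Agent.S56.Sel
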