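/-
S56 / block SEL, node N12: the four formal properties of `τ`.   Owner: helper57.
-/
import Fermat.Agent.S56.Sel.Defs

set_option autoImplicit false

namespace Fermat.Agent.S56.Sel

open Matrix

namespace TauLike

variable {k : Type} [Field k]

theorem trace_conj (G Gi M : M2 k) (h : Gi * G = 1) : (G * M * Gi).trace = M.trace := by
  rw [Matrix.trace_mul_comm, ← Matrix.mul_assoc, h, Matrix.one_mul]

theorem trace_mul_add_adjugate (P V : M2 k) :
    (P * V).trace + (P * V.adjugate).trace = P.trace * V.trace := by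
  simp only [Matrix.trace_fin_two, Matrix.mul_apply, Fin.sum_univ_two, Matrix.adjugate_fin_two,
    Matrix.of_apply, Matrix.cons_val', Matrix.cons_val_zero, Matrix.cons_val_one,
    Matrix.cons_val_fin_one]
  ring

theorem trace_sub_adjugate (X B V : M2 k) (hB : B.trace = 0) :
    (X * B * V).trace - (X * V.adjugate * B).trace = X.trace * (B * V).trace := by
  have h11 : B 1 1 = - B 0 0 := by
    rw [Matrix.trace_fin_two] at hB
    linear_combination hB
  simp only [Matrix.trace_fin_two, Matrix.mul_apply, Fin.sum_univ_two, Matrix.adjugate_fin_two,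
    Matrix.of_apply, Matrix.cons_val', Matrix.cons_val_zero, Matrix.cons_val_one,
    Matrix.cons_val_fin_one, h11]
  ring

theorem eq_adjugate {V Vi : M2 k} (h : V * Vi = 1) (hd : V.det = 1) : Vi = V.adjugate := by
  calc Vi = (V.adjugate * V) * Vi := by rw [Matrix.adjugate_mul, hd, one_smul, Matrix.one_mul]
    _ = V.adjugate := by rw [Matrix.mul_assoc, h, Matrix.mul_one]

/-- the matrix identity behind `t1` -/
theorem core_t1 (X Xi V Vi A B Z : M2 k) (hXiX : Xi * X = 1) (hV : V * Vi = 1) (hV' : Vi * V = 1)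
    (hd : V.det = 1) (hB : B.trace = 0) (hZ : B + V * Z * Vi = 0) :
    ((A + X * B * Xi) * (X * V)).trace + ((A + X * Z * Xi) * (X * Vi)).trace =
      (A * X).trace * V.trace + X.trace * (B * V).trace := by
  have c1 : ∀ M : M2 k, Xi * (X * M) = M := fun M => by
    rw [← Matrix.mul_assoc, hXiX, Matrix.one_mul]
  have c2 : ∀ M : M2 k, Vi * (V * M) = M := fun M => by
    rw [← Matrix.mul_assoc, hV', Matrix.one_mul]
  have hZ' : Z * Vi = -(Vi * B) := by
    have h1 : V * Z * Vi = -B := by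
      rw [eq_neg_iff_add_eq_zero, add_comm]; exact hZ
    calc Z * Vi = Vi * (V * Z * Vi) := by simp only [Matrix.mul_assoc, c2]
      _ = -(Vi * B) := by rw [h1, Matrix.mul_neg]
  have e1 : (A + X * B * Xi) * (X * V) = A * X * V + X * B * V := by
    simp only [Matrix.add_mul, Matrix.mul_assoc, c1]
  have e2 : (A + X * Z * Xi) * (X * Vi) = A * X * Vi - X * Vi * B := by
    have : (A + X * Z * Xi) * (X * Vi) = A * X * Vi + X * (Z * Vi) := by
      simp only [Matrix.add_mul, Matrix.mul_assoc, c1]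
    rw [this, hZ', Matrix.mul_neg, ← sub_eq_add_neg, Matrix.mul_assoc X Vi B]
  rw [e1, e2, Matrix.trace_add, Matrix.trace_sub, eq_adjugate hV hd,
    ← trace_mul_add_adjugate (A * X) V, ← trace_sub_adjugate X B V hB]
  ring

/-- the matrix identity behind `t2` -/
theorem core_t2 (G Gi X Xi Yg Yx Z : M2 k) (δ : k) (hGiG : Gi * G = 1) (hXiX : Xi * X = 1)
    (hZ : Yg + δ • (G * Z * Gi) = 0) :
    ((Yg + δ • (G * Yx * Gi) + δ • (G * X * Z * (Xi * Gi))) * (G * X * Gi)).trace =
      δ * (Yx * X).trace := by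
  have c1 : ∀ M : M2 k, Gi * (G * M) = M := fun M => by
    rw [← Matrix.mul_assoc, hGiG, Matrix.one_mul]
  have c2 : ∀ M : M2 k, Xi * (X * M) = M := fun M => by
    rw [← Matrix.mul_assoc, hXiX, Matrix.one_mul]
  have hYg : Yg = -(δ • (G * Z * Gi)) := eq_neg_of_add_eq_zero_left hZ
  have e1 : (G * Z * Gi) * (G * X * Gi) = G * (Z * X) * Gi := by
    simp only [Matrix.mul_assoc, c1]
  have e2 : (G * Yx * Gi) * (G * X * Gi) = G * (Yx * X) * Gi := by
    simp only [Matrix.mul_assoc, c1]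
  have e3 : (G * X * Z * (Xi * Gi)) * (G * X * Gi) = G * (X * Z) * Gi := by
    simp only [Matrix.mul_assoc, c1, c2]
  rw [hYg, Matrix.add_mul, Matrix.add_mul, Matrix.neg_mul, Matrix.smul_mul, Matrix.smul_mul,
    Matrix.smul_mul, e1, e2, e3, Matrix.trace_add, Matrix.trace_add, Matrix.trace_neg,
    Matrix.trace_smul, Matrix.trace_smul, Matrix.trace_smul, trace_conj _ _ _ hGiG,
    trace_conj _ _ _ hGiG, trace_conj _ _ _ hGiG, Matrix.trace_mul_comm Z X]
  simp only [smul_eq_mul]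
  ring

end TauLike

variable {p : ℕ} {k : Type} [Field k] {Γ : Type} [Group Γ] (S : Setup p k Γ)

theorem tauLike {Y : Γ → M2 k} (hY : S.IsCocycle Y) (hb : S.BetaZero Y) (hr : S.RegVanish Y) :
    S.TauLike (S.tau Y) := by
  have hinv : ∀ g, S.ρ g * S.ρ g⁻¹ = 1 := fun g => by rw [← map_mul, mul_inv_cancel, map_one]
  have hinv' : ∀ g, S.ρ g⁻¹ * S.ρ g = 1 := fun g => by rw [← map_mul, inv_mul_cancel, map_one]
  have hY1 : Y 1 = 0 := by
    have h := hY.coc 1 1
    rw [mul_one, inv_one, map_one, Matrix.det_one, one_smul, Matrix.one_mul, Matrix.mul_one] at h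
    exact left_eq_add.mp h
  have hYinv : ∀ g, Y g + (S.ρ g).det • (S.ρ g * Y g⁻¹ * S.ρ g⁻¹) = 0 := fun g => by
    rw [← hY.coc g g⁻¹, mul_inv_cancel, hY1]
  refine ⟨?_, ?_, ?_, hr⟩
  · intro x hx y hy hxy
    have hκ : x⁻¹ * y ∈ S.H := S.H.mul_mem (S.H.inv_mem hx) hy
    have hρκ : S.ρ (x⁻¹ * y) = 1 := by rw [map_mul, ← hxy, hinv']
    have h0 := hb _ hκ hρκ
    have h1 := hY.coc x (x⁻¹ * y)
    rw [mul_inv_cancel_left, h0, Matrix.mul_zero, Matrix.zero_mul, smul_zero, add_zero] at h1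
    rw [Setup.tau, Setup.tau, h1, hxy]
  · intro x hx y hy
    have h1 := hYinv y
    rw [S.det_H y hy, one_smul] at h1
    rw [Setup.tau, Setup.tau, Setup.tau, Setup.tau, hY.coc x y, hY.coc x y⁻¹, S.det_H x hx, one_smul, one_smul, map_mul,
      map_mul]
    exact TauLike.core_t1 _ _ _ _ _ _ _ (hinv' x) (hinv y) (hinv' y) (S.det_H y hy) (hY.tr y) h1
  · intro g x hx
    rw [Setup.tau, Setup.tau, hY.coc (g * x) g⁻¹, hY.coc g x, _root_.mul_inv_rev, map_mul, map_mul, map_mul, map_mul,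
      Matrix.det_mul, S.det_H x hx, mul_one]
    exact TauLike.core_t2 _ _ _ _ _ _ _ _ (hinv' g) (hinv' x) (hYinv g)

end Fermat.Agent.S56.Sel
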