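/-
S56 / block SEL, node N17 (sub-architect helper182, proof helper298): assembly of the unipotent
analysis, with the results of the nodes N13, N14, N16 as explicit hypotheses.
The wrapper with the official statements is `Sel/TauZero.lean`.
-/
import Fermat.Agent.S56.Sel.Defs

set_option autoImplicit false

namespace Fermat.Agent.S56.Sel

open Matrix

variable {p : ℕ} {k : Type} [Field k] {Γ : Type} [Group Γ] (S : Setup p k Γ)

namespace TauZero

/-- Cayley-Hamilton for trace `2` and determinant `1`. -/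
theorem sub_one_sq (A : M2 k) (htr : A.trace = 2) (hdet : A.det = 1) :
    (A - 1) * (A - 1) = 0 := by
  rw [Matrix.trace_fin_two] at htr
  rw [Matrix.det_fin_two] at hdet
  ext i j
  fin_cases i <;> fin_cases j
  · simp [Matrix.mul_apply, Fin.sum_univ_two]
    linear_combination A 0 0 * htr - hdet
  · simp [Matrix.mul_apply, Fin.sum_univ_two]
    linear_combination A 0 1 * htr
  · simp [Matrix.mul_apply, Fin.sum_univ_two]
    linear_combination A 1 0 * htr
  · simp [Matrix.mul_apply, Fin.sum_univ_two]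
    linear_combination A 1 1 * htr - hdet

theorem trace_sq (A : M2 k) : (A * A).trace = A.trace ^ 2 - 2 * A.det := by
  rw [Matrix.trace_fin_two, Matrix.trace_fin_two, Matrix.det_fin_two]
  simp [Matrix.mul_apply, Fin.sum_univ_two]
  ring

include S in
theorem two_ne_zero' : (2 : k) ≠ 0 := by
  haveI := S.char
  intro h
  have h1 : ((2 : ℕ) : k) = 0 := by exact_mod_cast h
  rw [CharP.cast_eq_zero_iff k p 2] at h1
  exact S.hp2 ((Nat.prime_dvd_prime_iff_eq S.hp Nat.prime_two).1 h1)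

/-- `tau_unip`, with N13 (`one`, `pow`), N14 (`unip_big`), N16 (`unip_small`) as hypotheses. -/
theorem tau_unip_of {t : Γ → k} (ht : S.TauLike t) (hone : t 1 = 0)
    (hbig : ∀ x x' : Γ, x ∈ S.H → x' ∈ S.H → ∀ n : M2 k, n ≠ 0 → n * n = 0 → S.ρ x = 1 + n →
      ∀ a : k, (∀ m : ℕ, a ≠ (m : k)) → S.ρ x' = 1 + a • n → t x = 0)
    (hsmall : ∀ x : Γ, x ∈ S.H → ∀ n : M2 k, n ≠ 0 → n * n = 0 → S.ρ x = 1 + n →
      (∀ x' ∈ S.H, ∀ a : k, S.ρ x' = 1 + a • n → ∃ m : ℕ, a = (m : k)) → t x = 0)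
    (x : Γ) (hx : x ∈ S.H) (htr : (S.ρ x).trace = 2) : t x = 0 := by
  have hnn : (S.ρ x - 1) * (S.ρ x - 1) = 0 := sub_one_sq _ htr (S.det_H x hx)
  have hρx : S.ρ x = 1 + (S.ρ x - 1) := by abel
  by_cases hn0 : S.ρ x - 1 = 0
  · have h1 : S.ρ x = S.ρ 1 := by rw [map_one]; exact sub_eq_zero.1 hn0
    rw [ht.t0 x hx 1 S.H.one_mem h1, hone]
  · by_cases hex : ∃ x' ∈ S.H, ∃ a : k, S.ρ x' = 1 + a • (S.ρ x - 1) ∧ ∀ m : ℕ, a ≠ (m : k)
    · obtain ⟨x', hx', a, hρx', ha⟩ := hex
      exact hbig x x' hx hx' _ hn0 hnn hρx a ha hρx'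
    · refine hsmall x hx _ hn0 hnn hρx fun x' hx' a hρx' => ?_
      by_contra hcon
      exact hex ⟨x', hx', a, hρx', fun m hm => hcon ⟨m, hm⟩⟩

/-- `tau_zero`, with `tau_unip` and N13 (`sq`) as hypotheses. -/
theorem tau_zero_of {t : Γ → k} (ht : S.TauLike t)
    (hunip : ∀ x ∈ S.H, (S.ρ x).trace = 2 → t x = 0)
    (hsq : ∀ x ∈ S.H, (S.ρ x).trace = -2 → t (x * x) = -4 * t x) :
    ∀ s ∈ S.H, t s = 0 := by
  intro s hs
  by_cases hd : disc (S.ρ s) = 0
  · have hdet := S.det_H s hs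
    rw [disc, hdet] at hd
    have h1 : ((S.ρ s).trace - 2) * ((S.ρ s).trace + 2) = 0 := by linear_combination hd
    rcases mul_eq_zero.1 h1 with h | h
    · exact hunip s hs (sub_eq_zero.1 h)
    · have htr : (S.ρ s).trace = -2 := eq_neg_of_add_eq_zero_left h
      have h2 : (S.ρ (s * s)).trace = 2 := by
        rw [map_mul, trace_sq, htr, hdet]
        ring
      have h3 := hsq s hs htr
      rw [hunip (s * s) (S.H.mul_mem hs hs) h2] at h3
      have h4 : (-4 : k) ≠ 0 := by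
        have := two_ne_zero' S
        have h5 : (-4 : k) = -(2 * 2) := by ring
        rw [h5]
        exact neg_ne_zero.2 (mul_ne_zero this this)
      exact (mul_eq_zero.1 h3.symm).resolve_left h4
  · exact ht.reg s hs hd

end TauZero

end Fermat.Agent.S56.Sel
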