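/-
S56 / block SEL (sub-architect helper182), node N14 (task 2603, owner helper169):
unipotent elements, case of a Sylow subgroup of order `> p`.
-/
import Fermat.Agent.S56.Sel.Defs

set_option autoImplicit false

namespace Fermat.Agent.S56.Sel

open Matrix

namespace UnipBig

section mat

variable {k : Type} [Field k]

/-- Cayley-Hamilton for `2 × 2` matrices. -/
theorem ch (X : M2 k) : X * X = X.trace • X - X.det • (1 : M2 k) := by
  ext i j
  fin_cases i <;> fin_cases j <;>
    simp [Matrix.mul_apply, Fin.sum_univ_two, Matrix.trace_fin_two, Matrix.det_fin_two] <;> ring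

theorem det_nil {n : M2 k} (hnn : n * n = 0) : n.det = 0 := by
  have h : (n * n).det = 0 := by rw [hnn, Matrix.det_zero]
  rw [Matrix.det_mul] at h
  exact mul_self_eq_zero.1 h

theorem trace_nil {n : M2 k} (hnn : n * n = 0) : n.trace = 0 := by
  have h := ch n
  rw [hnn, det_nil hnn, zero_smul, sub_zero] at h
  rcases smul_eq_zero.1 h.symm with h | h
  · exact h
  · rw [h, Matrix.trace_zero]

theorem trace_sq (X : M2 k) : (X * X).trace = X.trace ^ 2 - 2 * X.det := by
  simp only [Matrix.trace_fin_two, Matrix.det_fin_two, Matrix.mul_apply, Fin.sum_univ_two]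
  ring

theorem inv_eq {A A' : M2 k} (hA : A.det = 1) (hAA' : A * A' = 1) :
    A' = A.trace • (1 : M2 k) - A := by
  have h1 : A * (A.trace • (1 : M2 k) - A) = 1 := by
    rw [mul_sub, ch A, hA, one_smul, mul_smul_comm, mul_one]
    abel
  have h2 : A' * A = 1 := mul_eq_one_comm.1 hAA'
  calc A' = A' * (A * (A.trace • (1 : M2 k) - A)) := by rw [h1, mul_one]
    _ = A.trace • (1 : M2 k) - A := by rw [← mul_assoc, h2, one_mul]

theorem trace_nAn {n : M2 k} (A : M2 k) (hnn : n * n = 0) : (n * A * n).trace = 0 := by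
  rw [Matrix.trace_mul_comm, ← mul_assoc, hnn, zero_mul, Matrix.trace_zero]

/-- `λ = - μ ^ 2`. -/
theorem lam {n A A' : M2 k} (hnn : n * n = 0) (hA : A.det = 1) (hAA' : A * A' = 1) :
    (n * (A * n * A')).trace = - ((n * A).trace) ^ 2 := by
  have h1 : n * (A * n * A') = A.trace • (n * A * n) - (n * A) * (n * A) := by
    rw [inv_eq hA hAA', mul_sub, mul_sub, mul_smul_comm, mul_smul_comm, mul_one]
    simp only [mul_assoc]
  rw [h1, Matrix.trace_sub, Matrix.trace_smul, trace_nAn A hnn, trace_sq, Matrix.det_mul,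
    det_nil hnn]
  simp

theorem conj_nil {n A A' : M2 k} (hnn : n * n = 0) (hA'A : A' * A = 1) :
    (A * n * A') * (A * n * A') = 0 := by
  have : (A * n * A') * (A * n * A') = A * (n * ((A' * A) * n)) * A' := by
    simp only [mul_assoc]
  rw [this, hA'A, one_mul, hnn, mul_zero, zero_mul]

theorem trace_one_add {n : M2 k} (hnn : n * n = 0) (c : k) : (1 + c • n).trace = 2 := by
  rw [Matrix.trace_add, Matrix.trace_smul, trace_nil hnn, Matrix.trace_one]
  simp

theorem trace_prod {n n' : M2 k} (hnn : n * n = 0) (hnn' : n' * n' = 0) (c : k) :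
    ((1 + n) * (1 + c • n')).trace = 2 + c * (n * n').trace := by
  have h : (1 + n) * (1 + c • n') = 1 + n + c • n' + c • (n * n') := by
    rw [add_mul, mul_add, mul_add, one_mul, one_mul, mul_one, mul_smul_comm]
    abel
  rw [h, Matrix.trace_add, Matrix.trace_add, Matrix.trace_add, Matrix.trace_smul,
    Matrix.trace_smul, trace_nil hnn, trace_nil hnn', Matrix.trace_one]
  simp

theorem one_add_mul_one_add {n : M2 k} (hnn : n * n = 0) (a b : k) :
    (1 + a • n) * (1 + b • n) = 1 + (a + b) • n := by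
  rw [add_mul, mul_add, mul_add, one_mul, one_mul, mul_one, smul_mul_smul_comm, hnn, smul_zero,
    add_smul]
  abel

theorem one_add_mul_one_sub {n : M2 k} (hnn : n * n = 0) (c : k) :
    (1 + c • n) * (1 + (-c) • n) = 1 := by
  rw [one_add_mul_one_add hnn, add_neg_cancel, zero_smul, add_zero]

end mat

variable {p : ℕ} {k : Type} [Field k] {Γ : Type} [Group Γ] (S : Setup p k Γ)

include S in
theorem two_ne_zero' : (2 : k) ≠ 0 := by
  have := S.char
  intro h
  have h2 : ((2 : ℕ) : k) = 0 := by exact_mod_cast h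
  rw [CharP.cast_eq_zero_iff k p 2] at h2
  exact S.hp2 ((Nat.prime_dvd_prime_iff_eq S.hp Nat.prime_two).1 h2)

theorem rho_mul_inv (g : Γ) : S.ρ g * S.ρ g⁻¹ = 1 := by
  rw [← map_mul, mul_inv_cancel, map_one]

theorem rho_inv_mul (g : Γ) : S.ρ g⁻¹ * S.ρ g = 1 := by
  rw [← map_mul, inv_mul_cancel, map_one]

/-- the discriminant of an element of `H` of trace `2 + u` -/
theorem disc_ne {s : Γ} (hs : s ∈ S.H) (F : Subfield k) {u : k} (hu : u ∉ F)
    (htr : (S.ρ s).trace = 2 + u) : disc (S.ρ s) ≠ 0 := by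
  have h : disc (S.ρ s) = u * (u + 4) := by
    rw [disc, htr, S.det_H s hs]
    ring
  rw [h]
  refine mul_ne_zero ?_ ?_
  · rintro rfl
    exact hu F.zero_mem
  · intro h0
    apply hu
    have : u = -4 := by linear_combination h0
    rw [this]
    exact neg_mem (by exact_mod_cast natCast_mem F 4)

/-- relation (R) -/
theorem key {t : Γ → k} (ht : S.TauLike t) (F : Subfield k) {x h z : Γ} (hx : x ∈ S.H)
    (hh : h ∈ S.H) (hz : z ∈ S.H) {n : M2 k} (hnn : n * n = 0) (hρx : S.ρ x = 1 + n) {c : k}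
    (hρz : S.ρ z = 1 + c • n) (hc : c * (n * (S.ρ h * n * S.ρ h⁻¹)).trace ∉ F) :
    t z = - t x := by
  set A := S.ρ h with hA
  set A' := S.ρ h⁻¹ with hA'
  have hAA' : A * A' = 1 := rho_mul_inv S h
  have hA'A : A' * A = 1 := rho_inv_mul S h
  obtain ⟨n', hn'⟩ : ∃ n', n' = A * n * A' := ⟨_, rfl⟩
  rw [← hn'] at hc
  have hnn' : n' * n' = 0 := by rw [hn']; exact conj_nil hnn hA'A
  have hy : h * z * h⁻¹ ∈ S.H := S.H.mul_mem (S.H.mul_mem hh hz) (S.H.inv_mem hh)
  obtain ⟨y, hydef⟩ : ∃ y, y = h * z * h⁻¹ := ⟨_, rfl⟩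
  rw [← hydef] at hy
  have hρy : S.ρ y = 1 + c • n' := by
    rw [hydef, map_mul, map_mul, hρz, ← hA, ← hA', mul_add, add_mul, mul_one, hAA', hn',
      mul_smul_comm, smul_mul_assoc]
  have hρy' : S.ρ y⁻¹ = 1 + (-c) • n' := by
    have h1 := one_add_mul_one_sub hnn' c
    rw [← hρy] at h1
    calc S.ρ y⁻¹ = S.ρ y⁻¹ * (S.ρ y * (1 + (-c) • n')) := by rw [h1, mul_one]
      _ = 1 + (-c) • n' := by rw [← mul_assoc, rho_inv_mul, one_mul]
  have hty : t y = t z := by
    rw [hydef, ht.t2 h z hz, S.det_H h hh, one_mul]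
  have h1 : t (x * y) = 0 := by
    refine ht.reg _ (S.H.mul_mem hx hy) (disc_ne S (S.H.mul_mem hx hy) F hc ?_)
    rw [map_mul, hρx, hρy, trace_prod hnn hnn']
  have h2 : t (x * y⁻¹) = 0 := by
    have hc' : (-c) * (n * n').trace ∉ F := by
      intro hcon
      apply hc
      have := neg_mem hcon
      rwa [neg_mul, neg_neg] at this
    refine ht.reg _ (S.H.mul_mem hx (S.H.inv_mem hy))
      (disc_ne S (S.H.mul_mem hx (S.H.inv_mem hy)) F hc' ?_)
    rw [map_mul, hρx, hρy', trace_prod hnn hnn']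
  have h3 := ht.t1 x hx y hy
  have hx2 : (S.ρ x).trace = 2 := by
    have := trace_one_add hnn (1 : k)
    rwa [one_smul, ← hρx] at this
  rw [h1, h2, hρy, trace_one_add hnn', hx2, hty] at h3
  have h4 : (2 : k) * (t z + t x) = 0 := by linear_combination -h3
  rcases mul_eq_zero.1 h4 with h5 | h5
  · exact absurd h5 (two_ne_zero' S)
  · exact eq_neg_of_add_eq_zero_left h5

end UnipBig

variable {p : ℕ} {k : Type} [Field k] {Γ : Type} [Group Γ] (S : Setup p k Γ)

/-! ### N14 : file `Sel/UnipBig.lean` -/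
theorem unip_big (hn : S.NilIrr) {t : Γ → k} (ht : S.TauLike t) (x x' : Γ) (hx : x ∈ S.H)
    (hx' : x' ∈ S.H) (n : M2 k) (hn0 : n ≠ 0) (hnn : n * n = 0) (hρx : S.ρ x = 1 + n) (a : k)
    (ha : ∀ m : ℕ, a ≠ (m : k)) (hρx' : S.ρ x' = 1 + a • n) : t x = 0 := by
  have := S.char
  have : Fact p.Prime := ⟨S.hp⟩
  obtain ⟨F, hF⟩ : ∃ F : Subfield k, ∀ c ∈ F, ∃ m : ℕ, c = (m : k) := by
    refine ⟨(ZMod.castHom (dvd_refl p) k).fieldRange, ?_⟩
    rintro c ⟨z, rfl⟩
    refine ⟨z.val, ?_⟩
    conv_lhs => rw [← ZMod.natCast_zmod_val z]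
    rw [map_natCast]
  have haF : a ∉ F := fun h => by
    obtain ⟨m, hm⟩ := hF a h
    exact ha m hm
  have h2 : (2 : k) ≠ 0 := UnipBig.two_ne_zero' S
  obtain ⟨h, hh, hμ⟩ := hn n hn0 hnn
  obtain ⟨l, hl⟩ : ∃ l, l = (n * (S.ρ h * n * S.ρ h⁻¹)).trace := ⟨_, rfl⟩
  have hl0 : l ≠ 0 := by
    rw [hl, UnipBig.lam hnn (S.det_H h hh) (UnipBig.rho_mul_inv S h)]
    exact neg_ne_zero.2 (pow_ne_zero 2 hμ)
  have key : ∀ (z : Γ) (c : k), z ∈ S.H → S.ρ z = 1 + c • n → c * l ∉ F → t z = - t x := by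
    intro z c hz hρz hc
    rw [hl] at hc
    exact UnipBig.key S ht F hx hh hz hnn hρx hρz hc
  by_cases hlF : l ∈ F
  · -- CASE B
    have hcl : ∀ c : k, c ∉ F → c * l ∉ F := by
      intro c hc hcon
      apply hc
      have h1 := mul_mem hcon (inv_mem hlF)
      rwa [mul_assoc, mul_inv_cancel₀ hl0, mul_one] at h1
    have e1 : t x' = - t x := key x' a hx' hρx' (hcl a haF)
    have hρxinv : S.ρ x⁻¹ = 1 + (-1 : k) • n := by
      have h1 := UnipBig.one_add_mul_one_sub hnn (1 : k)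
      rw [one_smul, ← hρx] at h1
      calc S.ρ x⁻¹ = S.ρ x⁻¹ * (S.ρ x * (1 + (-1 : k) • n)) := by rw [h1, mul_one]
        _ = 1 + (-1 : k) • n := by rw [← mul_assoc, UnipBig.rho_inv_mul, one_mul]
    have e2 : t (x' * x) = - t x := by
      refine key (x' * x) (a + 1) (S.H.mul_mem hx' hx) ?_ (hcl _ ?_)
      · have := UnipBig.one_add_mul_one_add hnn a 1
        rw [one_smul] at this
        rw [map_mul, hρx, hρx', this]
      · intro hcon
        apply haF
        have := sub_mem hcon F.one_mem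
        rwa [add_sub_cancel_right] at this
    have e3 : t (x' * x⁻¹) = - t x := by
      refine key (x' * x⁻¹) (a - 1) (S.H.mul_mem hx' (S.H.inv_mem hx)) ?_ (hcl _ ?_)
      · rw [map_mul, hρxinv, hρx', UnipBig.one_add_mul_one_add hnn, sub_eq_add_neg]
      · intro hcon
        apply haF
        have := add_mem hcon F.one_mem
        rwa [sub_add_cancel] at this
    have h3 := ht.t1 x' hx' x hx
    have hx2 : (S.ρ x).trace = 2 := by
      have := UnipBig.trace_one_add hnn (1 : k)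
      rwa [one_smul, ← hρx] at this
    rw [e2, e3, e1, hρx', UnipBig.trace_one_add hnn, hx2] at h3
    have h4 : (2 : k) * t x = 0 := by linear_combination -h3
    exact (mul_eq_zero.1 h4).resolve_left h2
  · -- CASE A
    have e1 : t x = - t x := by
      refine key x 1 hx (by rw [one_smul, hρx]) ?_
      rwa [one_mul]
    have h4 : (2 : k) * t x = 0 := by linear_combination e1
    exact (mul_eq_zero.1 h4).resolve_left h2

end Fermat.Agent.S56.Sel
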