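/-
S56 / block SEL, node N16 (sub-architect helper182; proof helper202).
Unipotent elements when the Sylow subgroup has order `p`.
-/
import Fermat.Agent.S56.Sel.Defs

set_option autoImplicit false

namespace Fermat.Agent.S56.Sel

open Matrix

variable {p : ℕ} {k : Type} [Field k] {Γ : Type} [Group Γ] (S : Setup p k Γ)

namespace UnipSmall

/-- a nonzero `2 × 2` matrix of square zero has trace zero. -/
theorem trace_eq_zero {n : M2 k} (hn0 : n ≠ 0) (hnn : n * n = 0) : n.trace = 0 := by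
  have hdet : n.det = 0 := by
    have h : (n * n).det = 0 := by rw [hnn]; simp
    rw [Matrix.det_mul] at h
    exact mul_self_eq_zero.1 h
  by_contra htr
  apply hn0
  have e00 := congrFun (congrFun hnn 0) 0
  have e01 := congrFun (congrFun hnn 0) 1
  have e10 := congrFun (congrFun hnn 1) 0
  have e11 := congrFun (congrFun hnn 1) 1
  simp only [Matrix.mul_apply, Fin.sum_univ_two, Matrix.zero_apply] at e00 e01 e10 e11
  rw [Matrix.det_fin_two] at hdet
  rw [Matrix.trace_fin_two] at htr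
  ext i j
  fin_cases i <;> fin_cases j
  · show n 0 0 = 0
    have : (n 0 0 + n 1 1) * n 0 0 = 0 := by linear_combination e00 + hdet
    exact (mul_eq_zero.1 this).resolve_left htr
  · show n 0 1 = 0
    have : (n 0 0 + n 1 1) * n 0 1 = 0 := by linear_combination e01
    exact (mul_eq_zero.1 this).resolve_left htr
  · show n 1 0 = 0
    have : (n 0 0 + n 1 1) * n 1 0 = 0 := by linear_combination e10
    exact (mul_eq_zero.1 this).resolve_left htr
  · show n 1 1 = 0
    have : (n 0 0 + n 1 1) * n 1 1 = 0 := by linear_combination e11 + hdet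
    exact (mul_eq_zero.1 this).resolve_left htr

theorem one_add_pow {n : M2 k} (hnn : n * n = 0) (m : ℕ) :
    (1 + n) ^ m = 1 + (m : k) • n := by
  induction m with
  | zero => simp
  | succ m ih =>
    rw [pow_succ, ih, mul_add, add_mul, add_mul, one_mul, mul_one, one_mul, smul_mul_assoc, hnn,
      smul_zero, add_zero]
    push_cast
    rw [add_smul, one_smul]
    abel

end UnipSmall

theorem unip_small (hF : S.Frattini) {t : Γ → k} (ht : S.TauLike t)
    (hpow : ∀ x ∈ S.H, (S.ρ x).trace = 2 → ∀ m : ℕ, t (x ^ m) = (m : k) ^ 2 * t x)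
    (x : Γ) (hx : x ∈ S.H) (n : M2 k) (hn0 : n ≠ 0) (hnn : n * n = 0) (hρx : S.ρ x = 1 + n)
    (hsmall : ∀ x' ∈ S.H, ∀ a : k, S.ρ x' = 1 + a • n → ∃ m : ℕ, a = (m : k)) : t x = 0 := by
  obtain ⟨g₀, hg₀⟩ := S.nonsq
  obtain ⟨h, hh, c, hc⟩ := hF x hx n hn0 hnn hρx g₀
  set g := h * g₀ with hg
  have hy : g * x * g⁻¹ ∈ S.H := S.normal.conj_mem x hx g
  have hgg : S.ρ g * S.ρ g⁻¹ = 1 := by rw [← map_mul, mul_inv_cancel, map_one]
  have hρy : S.ρ (g * x * g⁻¹) = 1 + c • n := by
    rw [map_mul, map_mul, hρx, mul_add, mul_one, add_mul, hgg, hc]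
  obtain ⟨m, rfl⟩ := hsmall _ hy c hρy
  have hxm : x ^ m ∈ S.H := S.H.pow_mem hx m
  have hρxm : S.ρ (x ^ m) = 1 + (m : k) • n := by
    rw [map_pow, hρx, UnipSmall.one_add_pow hnn]
  have htr : (S.ρ x).trace = 2 := by
    rw [hρx, Matrix.trace_add, UnipSmall.trace_eq_zero hn0 hnn, add_zero, Matrix.trace_one]
    simp
  have e1 : t (g * x * g⁻¹) = (m : k) ^ 2 * t x := by
    rw [ht.t0 _ hy _ hxm (hρy.trans hρxm.symm), hpow x hx htr m]
  have e2 : t (g * x * g⁻¹) = (S.ρ g₀).det * t x := by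
    rw [ht.t2 g x hx, hg, map_mul, Matrix.det_mul, S.det_H h hh, one_mul]
  have e3 : ((S.ρ g₀).det - (m : k) ^ 2) * t x = 0 := by
    rw [sub_mul, ← e1, ← e2, sub_self]
  exact (mul_eq_zero.1 e3).resolve_left (sub_ne_zero.2 (hg₀ m))

end Fermat.Agent.S56.Sel
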