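/-
S56 / block SEL, node N17 (sub-architect helper182, proof helper298): `tau_unip`, `tau_zero`
(assembly of the unipotent analysis).
-/
import Fermat.Agent.S56.Sel.TauZeroCore
import Fermat.Agent.S56.Sel.TauBasic
import Fermat.Agent.S56.Sel.UnipBig
import Fermat.Agent.S56.Sel.UnipSmall

set_option autoImplicit false

namespace Fermat.Agent.S56.Sel

open Matrix

variable {p : ℕ} {k : Type} [Field k] {Γ : Type} [Group Γ] (S : Setup p k Γ)

theorem tau_unip (hn : S.NilIrr) (hF : S.Frattini) {t : Γ → k} (ht : S.TauLike t) (x : Γ)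
    (hx : x ∈ S.H) (htr : (S.ρ x).trace = 2) : t x = 0 :=
  TauZero.tau_unip_of S ht (TauLike.one S ht)
    (fun x x' hx hx' n hn0 hnn hρx a ha hρx' => unip_big S hn ht x x' hx hx' n hn0 hnn hρx a ha hρx')
    (fun x hx n hn0 hnn hρx hsmall =>
      unip_small S hF ht (fun x hx htr m => TauLike.pow S ht x hx htr m) x hx n hn0 hnn hρx hsmall)
    x hx htr

theorem tau_zero (hn : S.NilIrr) (hF : S.Frattini) {t : Γ → k} (ht : S.TauLike t) :
    ∀ s ∈ S.H, t s = 0 :=
  TauZero.tau_zero_of S ht (fun x hx htr => tau_unip S hn hF ht x hx htr)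
    (fun x hx htr => TauLike.sq S ht x hx htr)

end Fermat.Agent.S56.Sel
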